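import Fermat.Agent.Curve.Genus

/-!
# Values of functions at places; nonspecial effective divisors with distinct points
-/

set_option autoImplicit false
set_option linter.style.haveILetI false

noncomputable section

namespace FA.Curve

open AlgebraicCurve FA.ModField IntermediateField

variable {K F : Type*} [Field K] [Field F] [Algebra K F]

/-- `c` is the value of `f` at `P`. -/
def HasValue (P : Place K F) (f : F) (c : K) : Prop := AtLeast P 1 (f - algebraMap K F c)

theorem HasValue.atLeast {P : Place K F} {f : F} {c : K} (h : HasValue P f c) :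
    AtLeast P 0 f := by
  have := (h.mono zero_le_one).add (atLeast_algebraMap c)
  rwa [sub_add_cancel] at this

theorem HasValue.unique {P : Place K F} {f : F} {c d : K} (h : HasValue P f c)
    (h' : HasValue P f d) : c = d := by
  by_contra hne
  have h1 := h'.sub h
  rw [sub_sub_sub_cancel_left, ← map_sub, atLeast_iff (by simpa [sub_eq_zero] using hne),
    place_ord_algebraMap] at h1
  omega

theorem hasValue_algebraMap (P : Place K F) (c : K) : HasValue P (algebraMap K F c) c := by
  simp [HasValue, atLeast_zero]

theorem HasValue.sub {P : Place K F} {f g : F} {c d : K} (h : HasValue P f c)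
    (h' : HasValue P g d) : HasValue P (f - g) (c - d) := by
  rw [HasValue, map_sub, sub_sub_sub_comm]
  exact AtLeast.sub h h'

theorem HasValue.add {P : Place K F} {f g : F} {c d : K} (h : HasValue P f c)
    (h' : HasValue P g d) : HasValue P (f + g) (c + d) := by
  rw [HasValue, map_add, add_sub_add_comm]
  exact AtLeast.add h h'

theorem HasValue.smul {P : Place K F} {f : F} {c : K} (h : HasValue P f c) (a : K) :
    HasValue P (algebraMap K F a * f) (a * c) := by
  rw [HasValue, map_mul, ← mul_sub]
  exact AtLeast.smul h a

theorem hasValue_zero_iff {P : Place K F} {f : F} : HasValue P f 0 ↔ AtLeast P 1 f := by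
  simp [HasValue]

variable [IsAlgClosed K] (hF : IsFunctionField K F)

include hF

theorem exists_hasValue {P : Place K F} {f : F} (hf : AtLeast P 0 f) :
    ∃ c : K, HasValue P f c := by
  obtain ⟨c, hc⟩ := exists_residue hF.isCurve P (atLeast_zero_iff_mem.1 hf)
  exact ⟨c, hc.imp (fun h => sub_eq_zero.2 h) fun h => by omega⟩

/-- A set of `genus` distinct places (avoiding a given finite set) without nonconstant
functions having at most simple poles there. -/
theorem exists_nonspecial (T : Finset (Place K F)) :
    ∃ S : Finset (Place K F), S.card = genus K F ∧ Disjoint S T ∧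
      ell (∑ v ∈ S, Finsupp.single v (1 : ℤ)) = 1 := by
  classical
  haveI := infinite_places hF
  obtain ⟨c, hc⟩ := exists_threshold hF
  set n : ℕ := c.toNat + genus K F + 1 with hn
  obtain ⟨S₀, hS₀, hcard⟩ := (T.finite_toSet.infinite_compl).exists_subset_card_eq n
  have hdeg : ∀ S : Finset (Place K F),
      Divisor.degree (∑ v ∈ S, Finsupp.single v (1 : ℤ)) = S.card := fun S => by
    simp [map_sum, hF.deg_eq_one]
  suffices h : ∀ m : ℕ, ∀ S : Finset (Place K F), S.card = m → ↑S ⊆ (↑T : Set (Place K F))ᶜ →
      ell (∑ v ∈ S, Finsupp.single v (1 : ℤ)) = m + 1 - genus K F → genus K F ≤ m →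
      ∃ S : Finset (Place K F), S.card = genus K F ∧ Disjoint S T ∧
        ell (∑ v ∈ S, Finsupp.single v (1 : ℤ)) = 1 by
    refine h n S₀ hcard hS₀ ?_ (by omega)
    rw [hc _ (by rw [hdeg, hcard, hn]; push_cast; omega), hdeg, hcard]
  intro m
  induction m with
  | zero =>
    intro S hS hsub hell hg
    refine ⟨S, by omega, Finset.disjoint_left.2 fun v hv hvT => hsub hv hvT, ?_⟩
    rw [hell]; omega
  | succ m ih =>
    intro S hS hsub hell hg
    rcases eq_or_lt_of_le hg with heq | hlt
    · refine ⟨S, by omega, Finset.disjoint_left.2 fun v hv hvT => hsub hv hvT, ?_⟩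
      rw [hell]; omega
    have hsum : ∀ w, (∑ v ∈ S, Finsupp.single v (1 : ℤ)) w = if w ∈ S then 1 else 0 := fun w => by
      rw [Finset.sum_apply']
      simp [Finsupp.single_apply]
    -- some point of `S` is not a base point
    obtain ⟨v, hv, hlt'⟩ : ∃ v ∈ S, ell (∑ u ∈ S.erase v, Finsupp.single u (1 : ℤ)) <
        ell (∑ u ∈ S, Finsupp.single u (1 : ℤ)) := by
      by_contra hno
      push Not at hno
      have hle : riemannRochSpace (∑ u ∈ S, Finsupp.single u (1 : ℤ)) ≤
          riemannRochSpace (0 : Divisor K F) := by
        intro f hf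
        rw [mem_riemannRochSpace]
        intro w
        by_cases hw : w ∈ S
        · have hsub' : riemannRochSpace (∑ u ∈ S.erase w, Finsupp.single u (1 : ℤ)) ≤
              riemannRochSpace (∑ u ∈ S, Finsupp.single u (1 : ℤ)) := riemannRochSpace_mono
            (Finset.sum_le_sum_of_subset_of_nonneg (Finset.erase_subset _ _)
              fun u _ _ => Finsupp.single_nonneg.2 zero_le_one)
          haveI := finite_riemannRochSpace hF (∑ u ∈ S, Finsupp.single u (1 : ℤ))
          rw [← Submodule.eq_of_le_of_finrank_le hsub' (Int.ofNat_le.1 (hno w hw)),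
            mem_riemannRochSpace] at hf
          have := hf w
          rw [Finset.sum_apply', Finset.sum_eq_zero fun u hu =>
            Finsupp.single_eq_of_ne (Finset.ne_of_mem_erase hu).symm] at this
          simpa using this
        · have := (mem_riemannRochSpace.1 hf) w
          rw [hsum, if_neg hw] at this
          simpa using this
      haveI := finite_riemannRochSpace hF (0 : Divisor K F)
      have h2 : ell (∑ u ∈ S, Finsupp.single u (1 : ℤ)) ≤ ell (0 : Divisor K F) :=
        Int.ofNat_le.2 (Submodule.finrank_mono hle)
      rw [ell_zero hF, hell] at h2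
      omega
    refine ih (S.erase v) (by rw [Finset.card_erase_of_mem hv, hS]; omega)
      (fun u hu => hsub (Finset.mem_of_mem_erase hu)) ?_ (by omega)
    have h1 := riemann_inequality hF (∑ u ∈ S.erase v, Finsupp.single u (1 : ℤ))
    rw [hdeg, Finset.card_erase_of_mem hv, hS] at h1
    rw [hell] at hlt'
    push_cast at h1 hlt' ⊢
    omega

end FA.Curve
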