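import Fermat.Agent.Curve.Duality

/-!
# The space of dual differentials has dimension the genus

The pairing of `φ` with `v ∈ L(2m·B)` (`B` the pole divisor of `x`) is the coefficient of
`x^(m-1)` in `tr(φ v)`; it kills `x^m L(m·B) + L(m·B)`, of codimension `g` for large `m`.
-/

set_option autoImplicit false
set_option linter.style.haveILetI false
set_option linter.unusedSectionVars false

noncomputable section

namespace FA.Curve

open AlgebraicCurve FA.ModField Polynomial IntermediateField

variable {K F : Type*} [Field K] [Field F] [Algebra K F] [IsAlgClosed K]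
  (hF : IsFunctionField K F) {x : F} (hx : Transcendental K x)

include hF hx

theorem mem_riemannRoch_nB {m : ℕ} {f : F} :
    f ∈ riemannRochSpace (m • poleDiv hF x) ↔ f ∈ regSub (K := K) x ∧
      ∀ P : Place K F, P.ord x < 0 → AtLeast P (m * P.ord x) f := by
  rw [FA.Curve.mem_riemannRochSpace]
  simp only [Finsupp.smul_apply, nsmul_eq_mul, poleDiv_apply]
  constructor
  · intro h
    refine ⟨fun P hP => by simpa [max_eq_left (show -P.ord x ≤ 0 by omega)] using h P,
      fun P hP => ?_⟩
    simpa [max_eq_right (show 0 ≤ -P.ord x by omega)] using h P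
  · rintro ⟨h1, h2⟩ P
    rcases le_or_gt 0 (P.ord x) with hP | hP
    · simpa [max_eq_left (show -P.ord x ≤ 0 by omega)] using h1 P hP
    · simpa [max_eq_right (show 0 ≤ -P.ord x by omega)] using h2 P hP

theorem x_ne_zero : x ≠ 0 := fun h => hx (by rw [h]; exact isAlgebraic_zero)

theorem pow_mul_mem_two {m : ℕ} {a : F} (ha : a ∈ riemannRochSpace (m • poleDiv hF x)) :
    x ^ m * a ∈ riemannRochSpace ((2 * m) • poleDiv hF x) := by
  rw [mem_riemannRoch_nB hF hx] at ha ⊢
  refine ⟨mul_mem (pow_mem (self_mem_regSub x) m) ha.1, fun P hP => ?_⟩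
  refine ((atLeast_pow (atLeast_ord x) m).mul (ha.2 P hP)).mono (le_of_eq ?_)
  push_cast; ring

theorem pow_mem_nB (m : ℕ) : x ^ m ∈ riemannRochSpace (m • poleDiv hF x) := by
  rw [mem_riemannRoch_nB hF hx]
  exact ⟨pow_mem (self_mem_regSub x) m, fun P _ => atLeast_pow (atLeast_ord x) m⟩

theorem one_mem_nB (m : ℕ) : (1 : F) ∈ riemannRochSpace (m • poleDiv hF x) := by
  rw [mem_riemannRoch_nB hF hx]
  refine ⟨one_mem _, fun P hP => Or.inr ?_⟩
  rw [P.ord_one]
  exact mul_nonpos_of_nonneg_of_nonpos (Int.natCast_nonneg _) hP.le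

/-- `x^m L(mB) + L(mB)`. -/
def killed (m : ℕ) : Submodule K F :=
  (riemannRochSpace (m • poleDiv hF x)).map (LinearMap.mulLeft K (x ^ m)) ⊔
    riemannRochSpace (m • poleDiv hF x)

theorem killed_le (m : ℕ) : killed hF (x := x) m ≤ riemannRochSpace ((2 * m) • poleDiv hF x) := by
  refine sup_le ?_ (riemannRochSpace_mono (nsmul_le_nsmul_left (poleDiv_nonneg hF x) (by omega)))
  rintro _ ⟨a, ha, rfl⟩
  exact pow_mul_mem_two hF hx ha

theorem finrank_killed (m : ℕ) :
    (Module.finrank K (killed hF (x := x) m) : ℤ) = 2 * ell (m • poleDiv hF x) - 1 := by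
  classical
  set V := riemannRochSpace (m • poleDiv hF x)
  haveI := finite_riemannRochSpace hF (m • poleDiv hF x)
  have hinj : Function.Injective (LinearMap.mulLeft K (x ^ m)) := fun a b h =>
    mul_left_cancel₀ (pow_ne_zero m (x_ne_zero hF hx)) h
  have hcard : Module.finrank K (V.map (LinearMap.mulLeft K (x ^ m))) = Module.finrank K V :=
    (Submodule.equivMapOfInjective _ hinj V).finrank_eq.symm
  have hinf : V.map (LinearMap.mulLeft K (x ^ m)) ⊓ V = Submodule.span K {x ^ m} := by
    refine le_antisymm ?_ ?_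
    · rintro _ ⟨⟨a, ha, rfl⟩, hv⟩
      change x ^ m * a ∈ V at hv
      obtain ⟨c, rfl⟩ : ∃ c : K, c • (1 : F) = a := by
        refine Submodule.mem_span_singleton.1
          (mem_span_of_isConst (fun P => ?_) fun g hg => exists_ord_neg hF hg)
        rw [SetLike.mem_coe, mem_riemannRoch_nB hF hx] at ha
        rw [mem_riemannRoch_nB hF hx] at hv
        rcases le_or_gt 0 (P.ord x) with hP | hP
        · exact ha.1 P hP
        · rcases eq_or_ne a 0 with rfl | ha0
          · exact atLeast_zero
          have := hv.2 P hP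
          rw [atLeast_iff (mul_ne_zero (pow_ne_zero m (x_ne_zero hF hx)) ha0),
            P.ord_mul (pow_ne_zero m (x_ne_zero hF hx)) ha0, place_ord_pow] at this
          exact Or.inr (by linarith)
      exact Submodule.mem_span_singleton.2 ⟨c, by simp⟩
    · rw [Submodule.span_le, Set.singleton_subset_iff]
      exact ⟨⟨1, one_mem_nB hF hx m, by simp⟩, pow_mem_nB hF hx m⟩
  have h := Submodule.finrank_sup_add_finrank_inf_eq (V.map (LinearMap.mulLeft K (x ^ m))) V
  rw [hinf, finrank_span_singleton (pow_ne_zero m (x_ne_zero hF hx)), hcard] at h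
  have h' : Module.finrank K (killed hF (x := x) m) + 1 = Module.finrank K V + Module.finrank K V := h
  show _ = 2 * (Module.finrank K V : ℤ) - 1
  omega

theorem finrank_adjoin_pos : 0 < Module.finrank K⟮x⟯ F := by
  haveI := hF.finiteDimensional hx
  exact Module.finrank_pos

/-- For large `m` the dimensions are given by Riemann's theorem. -/
theorem exists_dims : ∃ m₀ : ℕ, ∀ m : ℕ, m₀ ≤ m →
    ell ((2 * m) • poleDiv hF x) = 2 * (m * Module.finrank K⟮x⟯ F) + 1 - genus K F ∧
    (Module.finrank K (killed hF (x := x) m) : ℤ) =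
      2 * (m * Module.finrank K⟮x⟯ F) + 1 - 2 * genus K F := by
  obtain ⟨c, hc⟩ := exists_threshold hF
  refine ⟨c.toNat, fun m hm => ?_⟩
  have hn := finrank_adjoin_pos hF hx
  have hdeg : ∀ j : ℕ, Divisor.degree (j • poleDiv hF x) =
      (j : ℤ) * Module.finrank K⟮x⟯ F := fun j => by
    rw [map_nsmul, degree_poleDiv hF hx, nsmul_eq_mul]
  have hle : ∀ j : ℕ, m ≤ j → c ≤ Divisor.degree (j • poleDiv hF x) := fun j hj => by
    rw [hdeg]
    have : (m : ℤ) ≤ (j : ℤ) * Module.finrank K⟮x⟯ F := by nlinarith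
    omega
  refine ⟨?_, ?_⟩
  · rw [hc _ (hle _ (by omega)), hdeg]; push_cast; ring
  · rw [finrank_killed hF hx, hc _ (hle _ le_rfl), hdeg]; ring

omit hF in
/-- `x^D p(1/x)` is the reflected polynomial. -/
theorem aeval_inv_mul_pow {p : K[X]} {D : ℕ} (hD : p.natDegree ≤ D) :
    aeval x⁻¹ p * x ^ D = aeval x (p.reflect D) := by
  haveI : Invertible x⁻¹ := invertibleOfNonzero (inv_ne_zero fun h => hx (by rw [h]; exact isAlgebraic_zero))
  have h := eval₂_reflect_mul_pow (algebraMap K F) x⁻¹ D p hD
  rw [invOf_eq_inv, inv_inv] at h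
  rw [aeval_def, aeval_def, ← h, mul_assoc, ← mul_pow,
    inv_mul_cancel₀ (fun h => hx (by rw [h]; exact isAlgebraic_zero)), one_pow, mul_one]

/-- A linear left inverse of `p ↦ p(x)`. -/
theorem exists_coef : ∃ coef : F →ₗ[K] K[X], ∀ p : K[X], coef (aeval x p) = p := by
  obtain ⟨g, hg⟩ := LinearMap.exists_leftInverse_of_injective (aeval (R := K) x).toLinearMap
    (LinearMap.ker_eq_bot'.2 fun p hp => transcendental_iff.1 hx p hp)
  exact ⟨g, fun p => LinearMap.congr_fun hg p⟩

/-- Every function is regular after multiplication by a polynomial in `x`. -/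
theorem exists_clear (f : F) : ∃ s : K[X], s ≠ 0 ∧ aeval x s * f ∈ regSub (K := K) x := by
  haveI := hF.finiteDimensional hx
  open scoped algebraAdjoinAdjoin in
  obtain ⟨a, ha0, ha⟩ := ((IsFractionRing.isAlgebraic_iff (Algebra.adjoin K ({x} : Set F)) K⟮x⟯ F).2
    (Algebra.IsAlgebraic.isAlgebraic f)).exists_integral_multiple
  obtain ⟨s, hs⟩ := (Algebra.adjoin_singleton_eq_range_aeval K x).le a.2
  refine ⟨s, fun h => ha0 (Subtype.ext (by simp [← hs, h])), fun P hP => ?_⟩
  rw [atLeast_zero_iff_mem]
  refine mem_place_of_isIntegral_adjoin (mem_place_of_ord_nonneg P hP) ?_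
  rw [show aeval x s = ((a : Algebra.adjoin K ({x} : Set F)) : F) from hs]
  simpa [Algebra.smul_def] using ha

/-- A family of dual differentials is no larger than the genus. -/
theorem card_le_genus [Algebra.IsSeparable K⟮x⟯ F] {ι : Type*} [Fintype ι] (φ : ι → F)
    (hli : LinearIndependent K φ) (hφ : ∀ i, IsDual K x (φ i)) :
    Fintype.card ι ≤ genus K F := by
  classical
  haveI := hF.finiteDimensional hx
  obtain ⟨coef, hcoef⟩ := exists_coef hF hx
  obtain ⟨m₀, hm₀⟩ := exists_dims hF hx
  set L : ℕ → Submodule K F := fun m => riemannRochSpace ((2 * m) • poleDiv hF x)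
  set Φ : (ι → K) →ₗ[K] F := Fintype.linearCombination K φ
  have hΦd : ∀ a, IsDual K x (Φ a) := by
    intro a
    rw [Fintype.linearCombination_apply]
    refine ⟨fun u hu => ?_, fun u hu => ?_⟩
    · choose p hp using fun i => (hφ i).1 u hu
      refine ⟨∑ i, a i • p i, ?_⟩
      simp only [Finset.sum_mul, map_sum, smul_mul_assoc, map_smul, hp]
    · choose p hp using fun i => (hφ i).2 u hu
      refine ⟨∑ i, a i • p i, ?_⟩
      simp only [Finset.sum_mul, map_sum, smul_mul_assoc, map_smul, hp, Finset.mul_sum,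
        mul_smul_comm]
  let Λ : ℕ → F →ₗ[K] F →ₗ[K] K := fun m =>
    (LinearMap.mul K F).compr₂ (((lcoeff K (m - 1)).comp coef).comp (trX K x))
  have hΛ : ∀ m φ v, Λ m φ v = (coef (trX K x (φ * v))).coeff (m - 1) := fun _ _ _ => rfl
  let N : ℕ → Submodule K (ι → K) := fun m =>
    LinearMap.ker ((((Λ m).comp Φ).flip.comp (L m).subtype).flip)
  have hN : ∀ m a, a ∈ N m ↔ ∀ v ∈ L m, (coef (trX K x (Φ a * v))).coeff (m - 1) = 0 := by
    intro m a
    refine ⟨fun h v hv => ?_, fun h => LinearMap.ext fun v => h v v.2⟩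
    exact LinearMap.congr_fun h ⟨v, hv⟩
  have hanti : ∀ m, 1 ≤ m → N (m + 1) ≤ N m := by
    intro m hm a ha
    rw [hN] at ha ⊢
    intro v hv
    have hv' := hv
    simp only [L, mem_riemannRoch_nB hF hx] at hv'
    have h1 := ha (x * v) (by
      simp only [L, mem_riemannRoch_nB hF hx]
      refine ⟨mul_mem (self_mem_regSub x) hv'.1, fun P hP => ?_⟩
      refine ((atLeast_ord x).mul (hv'.2 P hP)).mono ?_
      push_cast; linarith)
    obtain ⟨p, hp⟩ := (hΦd a).1 v hv'.1
    rw [mul_left_comm, trX_mul_of_mem (mem_adjoin_simple_self K x), hp,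
      show x * aeval x p = aeval x (X * p) by rw [map_mul, aeval_X], hcoef,
      Nat.add_sub_cancel, show m = m - 1 + 1 by omega, coeff_X_mul] at h1
    rwa [hp, hcoef]
  -- the intersection is zero
  have hzero : ∀ a, (∀ m, m₀ + 1 ≤ m → a ∈ N m) → a = 0 := by
    intro a ha
    have hΦ0 : Φ a = 0 := by
      by_contra hne
      obtain ⟨w, hw⟩ : ∃ w, trX K x (Φ a * w) ≠ 0 := by
        by_contra hno
        push Not at hno
        refine hne ((traceForm_nondegenerate K⟮x⟯ F).1 (Φ a) fun w => ?_)
        exact Subtype.ext (hno w)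
      obtain ⟨s, hs, hsw⟩ := exists_clear hF hx w
      obtain ⟨p, hp⟩ := (hΦd a).1 _ hsw
      have hp0 : p ≠ 0 := by
        rintro rfl
        rw [map_zero, mul_left_comm, trX_mul_of_mem (aeval_mem x s)] at hp
        exact mul_ne_zero (fun h => hs (transcendental_iff.1 hx s h)) hw hp
      set u := aeval x s * w
      set B : ℕ := ∑ P ∈ (poleDiv hF x).support, (P.ord u).natAbs
      set m := p.natDegree + B + m₀ + 1 with hm
      have hv : x ^ (m - 1 - p.natDegree) * u ∈ L m := by
        simp only [L, mem_riemannRoch_nB hF hx]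
        refine ⟨mul_mem (pow_mem (self_mem_regSub x) _) hsw, fun P hP => ?_⟩
        refine ((atLeast_pow (atLeast_ord x) _).mul (atLeast_ord u)).mono ?_
        have hPB : (P.ord u).natAbs ≤ B := Finset.single_le_sum
          (f := fun P : Place K F => (P.ord u).natAbs) (fun _ _ => Nat.zero_le _)
          (Finsupp.mem_support_iff.2 (by rw [poleDiv_apply]; omega))
        have h1 : ((m - 1 - p.natDegree : ℕ) : ℤ) + B ≤ 2 * m := by omega
        have hPB' : -(B : ℤ) ≤ P.ord u := by omega
        have h2 : (B : ℤ) * P.ord x ≤ (B : ℤ) * (-1) :=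
          mul_le_mul_of_nonneg_left (by omega) (Int.natCast_nonneg _)
        have h3 := mul_le_mul_of_nonpos_right h1 hP.le
        push_cast at h3 ⊢
        linarith
      have := (hN m a).1 (ha m (by omega)) _ hv
      rw [mul_left_comm, trX_mul_of_mem (pow_mem (mem_adjoin_simple_self K x) _), hp,
        show x ^ (m - 1 - p.natDegree) * aeval x p = aeval x (X ^ (m - 1 - p.natDegree) * p) by
          rw [map_mul, map_pow, aeval_X], hcoef, coeff_X_pow_mul', if_pos (by omega),
        show m - 1 - (m - 1 - p.natDegree) = p.natDegree by omega] at this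
      exact leadingCoeff_ne_zero.2 hp0 this
    funext i
    exact Fintype.linearIndependent_iff.1 hli a
      (by simpa [Φ, Fintype.linearCombination_apply] using hΦ0) i
  obtain ⟨m, hm, hmin⟩ : ∃ m, m₀ + 1 ≤ m ∧ ∀ j, m₀ + 1 ≤ j →
      Module.finrank K (N m) ≤ Module.finrank K (N j) := by
    obtain ⟨m, hm, hmin⟩ := wellFounded_lt.has_min
      ((fun j => Module.finrank K (N j)) '' Set.Ici (m₀ + 1)) (Set.image_nonempty.2 Set.nonempty_Ici)
    obtain ⟨j, hj, rfl⟩ := hm
    exact ⟨j, hj, fun i hi => not_lt.1 (hmin _ ⟨i, hi, rfl⟩)⟩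
  have hker : ∀ a, a ∈ N m → a = 0 := by
    intro a ha
    refine hzero a fun j hj => ?_
    have hmono : ∀ d i, m₀ + 1 ≤ i → N (i + d) ≤ N i := by
      intro d i hi
      induction d with
      | zero => exact le_rfl
      | succ d ih => exact (hanti (i + d) (by omega)).trans ih
    rcases le_or_gt j m with h | h
    · obtain ⟨d, rfl⟩ := Nat.exists_eq_add_of_le h
      exact hmono d j hj ha
    · obtain ⟨d, rfl⟩ := Nat.exists_eq_add_of_le h.le
      have := Submodule.eq_of_le_of_finrank_le (hmono d m hm) (hmin _ hj)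
      rwa [this]
  -- into the dual of the quotient by the killed part
  set V := L m
  haveI : Module.Finite K V := finite_riemannRochSpace hF _
  set W : Submodule K V := (killed hF (x := x) m).comap V.subtype
  let ψ : (ι → K) →ₗ[K] Module.Dual K V := (((Λ m).comp Φ).flip.comp V.subtype).flip
  have hψW : ∀ a, ψ a ∈ W.dualAnnihilator := by
    intro a
    rw [Submodule.mem_dualAnnihilator]
    intro v hv
    show (coef (trX K x (Φ a * (v : F)))).coeff (m - 1) = 0
    obtain ⟨v₁, hv₁, v₂, hv₂, hv12⟩ := Submodule.mem_sup.1 (Submodule.mem_comap.1 hv)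
    rw [← Submodule.subtype_apply, ← hv12, mul_add, map_add, map_add, coeff_add]
    obtain ⟨b, hb, rfl⟩ := hv₁
    have h1 : (coef (trX K x (Φ a * LinearMap.mulLeft K (x ^ m) b))).coeff (m - 1) = 0 := by
      rw [SetLike.mem_coe, mem_riemannRoch_nB hF hx] at hb
      obtain ⟨p, hp⟩ := (hΦd a).1 b hb.1
      rw [LinearMap.mulLeft_apply, mul_left_comm,
        trX_mul_of_mem (pow_mem (mem_adjoin_simple_self K x) _), hp,
        show x ^ m * aeval x p = aeval x (X ^ m * p) by rw [map_mul, map_pow, aeval_X], hcoef,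
        coeff_X_pow_mul', if_neg (by omega)]
    have h2 : (coef (trX K x (Φ a * v₂))).coeff (m - 1) = 0 := by
      rw [mem_riemannRoch_nB hF hx] at hv₂
      have hx0 := x_ne_zero hF hx
      have hinf : x⁻¹ ^ m * v₂ ∈ regSub (K := K) x⁻¹ := by
        intro P hP
        rw [P.ord_inv] at hP
        rcases eq_or_lt_of_le (show P.ord x ≤ 0 by omega) with h0 | h0
        · refine (((atLeast_ord (v := P) (x⁻¹ ^ m)).mul (hv₂.1 P h0.ge))).mono ?_
          rw [place_ord_pow, P.ord_inv, h0]; simp
        · refine ((atLeast_ord (v := P) (x⁻¹ ^ m)).mul (hv₂.2 P h0)).mono ?_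
          rw [place_ord_pow, P.ord_inv]; ring_nf; exact le_rfl
      obtain ⟨p, hp⟩ := (hΦd a).2 _ hinf
      obtain ⟨q, hq⟩ := (hΦd a).1 v₂ hv₂.1
      have hkey : aeval x (q * X ^ (p.natDegree + 2)) =
          aeval x (X ^ m * p.reflect p.natDegree) := by
        rw [mul_left_comm, trX_mul_of_mem (pow_mem (inv_mem (mem_adjoin_simple_self K x)) _),
          hq] at hp
        rw [map_mul, map_mul, map_pow, map_pow, aeval_X, ← aeval_inv_mul_pow hx le_rfl]
        calc aeval x q * x ^ (p.natDegree + 2)
            = (x⁻¹ ^ m * aeval x q) * (x ^ m * x ^ (p.natDegree + 2)) := by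
              rw [inv_pow]; field_simp
          _ = _ := by
              rw [hp, inv_pow]; field_simp; ring
      have hpoly := transcendental_iff_injective.1 hx hkey
      have hc := congrArg (fun r : K[X] => r.coeff (m - 1 + (p.natDegree + 2))) hpoly
      simp only [coeff_mul_X_pow, coeff_X_pow_mul', if_pos (show m ≤ m - 1 + (p.natDegree + 2) by omega)] at hc
      rw [hq, hcoef, hc, show m - 1 + (p.natDegree + 2) - m = p.natDegree + 1 by omega,
        coeff_reflect, revAt_eq_self_of_lt (Nat.lt_succ_self _)]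
      exact coeff_eq_zero_of_natDegree_lt (Nat.lt_succ_self _)
    rw [h1, h2, add_zero]
  have hinj : Function.Injective (ψ.codRestrict _ hψW) := by
    refine (injective_iff_map_eq_zero _).2 fun a ha => ?_
    exact hker a (congrArg Subtype.val ha)
  have hle := LinearMap.finrank_le_finrank_of_injective hinj
  rw [Module.finrank_fintype_fun_eq_card] at hle
  have hann := Subspace.finrank_add_finrank_dualAnnihilator_eq W
  have hW : Module.finrank K W = Module.finrank K (killed hF (x := x) m) :=
    (Submodule.comapSubtypeEquivOfLe (killed_le hF hx m)).finrank_eq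
  obtain ⟨d1, d2⟩ := hm₀ m (by omega)
  rw [ell] at d1
  have hann' : Module.finrank K W + Module.finrank K W.dualAnnihilator =
      Module.finrank K V := hann
  have d1' : (Module.finrank K V : ℤ) = 2 * (m * Module.finrank K⟮x⟯ F) + 1 - genus K F := d1
  omega

/-- There are `genus` independent dual differentials. -/
theorem exists_dual [Algebra.IsSeparable K⟮x⟯ F] :
    ∃ φ : Fin (genus K F) → F, LinearIndependent K φ ∧ ∀ i, IsDual K x (φ i) := by
  classical
  haveI := hF.finiteDimensional hx
  have hx0 := x_ne_zero hF hx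
  obtain ⟨m₀, hm₀⟩ := exists_dims hF hx
  set m := m₀ + 1
  obtain ⟨d1, d2⟩ := hm₀ m (by omega)
  set Z : Submodule K F := (regSub (K := K) x).toSubmodule ⊔ (regSub (K := K) x⁻¹).toSubmodule
  set V := riemannRochSpace ((2 * m) • poleDiv hF x)
  haveI : Module.Finite K V := finite_riemannRochSpace hF _
  let θ : V →ₗ[K] F ⧸ Z := Z.mkQ.comp ((LinearMap.mulLeft K (x⁻¹ ^ m)).comp V.subtype)
  have hker : LinearMap.ker θ ≤ (killed hF (x := x) m).comap V.subtype := by
    rintro ⟨v, hv⟩ hθ
    change Submodule.Quotient.mk (x⁻¹ ^ m * v) = (0 : F ⧸ Z) at hθ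
    obtain ⟨a, ha, b, hb, hab⟩ := Submodule.mem_sup.1 ((Submodule.Quotient.mk_eq_zero _).1 hθ)
    rw [mem_riemannRoch_nB hF hx] at hv
    have haV : a ∈ riemannRochSpace (m • poleDiv hF x) := by
      rw [mem_riemannRoch_nB hF hx]
      refine ⟨ha, fun P hP => ?_⟩
      rw [eq_sub_of_add_eq hab]
      refine AtLeast.sub ?_ ((hb P (by rw [P.ord_inv]; omega)).mono
        (mul_nonpos_of_nonneg_of_nonpos (Int.natCast_nonneg _) hP.le))
      refine ((atLeast_ord (v := P) (x⁻¹ ^ m)).mul (hv.2 P hP)).mono (le_of_eq ?_)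
      rw [place_ord_pow, P.ord_inv]; push_cast; ring
    refine Submodule.mem_sup.2 ⟨x ^ m * a, ⟨a, haV, rfl⟩, x ^ m * b, ?_, ?_⟩
    · rw [mem_riemannRoch_nB hF hx]
      refine ⟨fun P hP => ?_, fun P hP => ?_⟩
      · have hxb : x ^ m * b = v - x ^ m * a := by
          have h : x ^ m * (a + b) = v := by
            rw [hab, ← mul_assoc, ← mul_pow, mul_inv_cancel₀ hx0, one_pow, one_mul]
          linear_combination h
        rw [hxb]
        exact (hv.1 P hP).sub (mul_mem (pow_mem (self_mem_regSub x) m) ha P hP)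
      · simpa using (atLeast_pow (atLeast_ord (v := P) x) m).mul (hb P (by rw [P.ord_inv]; omega))
    · rw [Submodule.subtype_apply, ← mul_add, hab, ← mul_assoc, ← mul_pow,
        mul_inv_cancel₀ hx0, one_pow, one_mul]
  have hrange : genus K F ≤ Module.finrank K (LinearMap.range θ) := by
    have h1 := LinearMap.finrank_range_add_finrank_ker θ
    haveI : Module.Finite K (killed hF (x := x) m) :=
      Submodule.finiteDimensional_of_le (killed_le hF hx m)
    have h2 := Submodule.finrank_mono hker
    rw [(Submodule.comapSubtypeEquivOfLe (killed_le hF hx m)).finrank_eq] at h2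
    rw [ell] at d1
    have d1' : (Module.finrank K V : ℤ) = 2 * (m * Module.finrank K⟮x⟯ F) + 1 - genus K F := d1
    omega
  -- functionals biorthogonal to part of the image
  let bR := Module.finBasis K (LinearMap.range θ)
  have hext : ∀ i : Fin (genus K F), ∃ Λ : F ⧸ Z →ₗ[K] K,
      Λ.comp (LinearMap.range θ).subtype = bR.coord (Fin.castLE hrange i) :=
    fun i => LinearMap.exists_extend _
  choose Λ hΛ using hext
  choose v hv using fun i : Fin (genus K F) => (bR (Fin.castLE hrange i)).2
  have hbi : ∀ i j, Λ i (θ (v j)) = if i = j then 1 else 0 := by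
    intro i j
    rw [hv j]
    have := LinearMap.congr_fun (hΛ i) (bR (Fin.castLE hrange j))
    simp only [LinearMap.comp_apply, Submodule.subtype_apply, Module.Basis.coord_apply,
      Module.Basis.repr_self, Finsupp.single_apply, Fin.castLE_inj] at this
    rw [this]
    simp only [eq_comm]
  let lam : Fin (genus K F) → F →ₗ[K] K := fun i => (Λ i).comp Z.mkQ
  have hlam0 : ∀ i, ∀ u ∈ regSub (K := K) x, lam i u = 0 := fun i u hu => by
    simp only [lam, LinearMap.comp_apply, Submodule.mkQ_apply,
      (Submodule.Quotient.mk_eq_zero Z).2 (Submodule.mem_sup_left hu), map_zero]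
  have hlam1 : ∀ i, ∀ u ∈ regSub (K := K) x⁻¹, lam i u = 0 := fun i u hu => by
    simp only [lam, LinearMap.comp_apply, Submodule.mkQ_apply,
      (Submodule.Quotient.mk_eq_zero Z).2 (Submodule.mem_sup_right hu), map_zero]
  -- every regular function has bounded poles
  have hbound : ∀ u ∈ regSub (K := K) x, ∃ M : ℕ, ∀ j, M ≤ j →
      x⁻¹ ^ j * u ∈ regSub (K := K) x⁻¹ := by
    intro u hu
    refine ⟨∑ P ∈ (poleDiv hF x).support, (P.ord u).natAbs, fun j hj P hP => ?_⟩
    rw [P.ord_inv] at hP
    rcases eq_or_lt_of_le (show P.ord x ≤ 0 by omega) with h0 | h0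
    · refine (((atLeast_ord (v := P) (x⁻¹ ^ j)).mul (hu P h0.ge))).mono ?_
      rw [place_ord_pow, P.ord_inv, h0]; simp
    · refine ((atLeast_ord (v := P) (x⁻¹ ^ j)).mul (atLeast_ord u)).mono ?_
      have hmem : P ∈ (poleDiv hF x).support :=
        Finsupp.mem_support_iff.2 (by rw [poleDiv_apply]; omega)
      have hPB := Finset.single_le_sum
        (f := fun P : Place K F => (P.ord u).natAbs) (fun _ _ => Nat.zero_le _) hmem
      rw [place_ord_pow, P.ord_inv]
      have h2 : (j : ℤ) ≤ j * -P.ord x := by nlinarith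
      omega
  have hT : ∀ i, ∀ u ∈ regSub (K := K) x, ∃ T : K[X], ∀ j, T.coeff j = lam i (x⁻¹ ^ (j + 1) * u) := by
    intro i u hu
    obtain ⟨M, hM⟩ := hbound u hu
    refine ⟨∑ j ∈ Finset.range M, monomial j (lam i (x⁻¹ ^ (j + 1) * u)), fun j => ?_⟩
    rw [finsetSum_coeff]
    simp only [coeff_monomial, Finset.sum_ite_eq', Finset.mem_range]
    split_ifs with h
    · rfl
    · exact (hlam1 i _ (hM (j + 1) (by omega))).symm
  choose T hT using hT
  have hTadd : ∀ i u hu w hw, T i (u + w) (add_mem hu hw) = T i u hu + T i w hw := fun i u hu w hw =>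
    Polynomial.ext fun j => by rw [coeff_add, hT, hT, hT, mul_add, map_add]
  have hTsmul : ∀ i (c : K) u hu, T i (c • u) (Subalgebra.smul_mem _ hu c) = c • T i u hu :=
    fun i c u hu => Polynomial.ext fun j => by
      rw [coeff_smul, hT, hT, mul_smul_comm, map_smul]
  have hTX : ∀ i u hu, T i (x * u) (mul_mem (self_mem_regSub x) hu) = X * T i u hu := fun i u hu =>
    Polynomial.ext fun j => by
      rw [hT, pow_succ, mul_assoc, inv_mul_cancel_left₀ hx0]
      rcases j with _ | j
      · rw [mul_coeff_zero, coeff_X_zero, zero_mul, pow_zero, one_mul, hlam0 i u hu]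
      · rw [coeff_X_mul, hT]
  have hTmul : ∀ i (q : K[X]) u hu,
      ∃ h, T i (aeval x q * u) h = q * T i u hu := by
    intro i q
    induction q using Polynomial.induction_on' with
    | add p q hp hq =>
      intro u hu
      obtain ⟨h1, e1⟩ := hp u hu
      obtain ⟨h2, e2⟩ := hq u hu
      have : aeval x (p + q) * u = aeval x p * u + aeval x q * u := by rw [map_add, add_mul]
      refine ⟨by rw [this]; exact add_mem h1 h2, ?_⟩
      rw [add_mul, ← e1, ← e2, ← hTadd]
      congr 1
    | monomial n c =>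
      induction n with
      | zero =>
        intro u hu
        have : aeval x (monomial 0 c) * u = c • u := by simp [Algebra.smul_def]
        refine ⟨by rw [this]; exact Subalgebra.smul_mem _ hu c, ?_⟩
        conv_rhs => rw [monomial_zero_left, ← smul_eq_C_mul, ← hTsmul]
        congr 1
      | succ n ih =>
        intro u hu
        obtain ⟨h, e⟩ := ih u hu
        have : aeval x (monomial (n + 1) c) * u = x * (aeval x (monomial n c) * u) := by
          rw [aeval_monomial, aeval_monomial, pow_succ]; ring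
        refine ⟨by rw [this]; exact mul_mem (self_mem_regSub x) h, ?_⟩
        conv_rhs => rw [show monomial (n + 1) c = X * monomial n c by rw [X_mul_monomial], mul_assoc,
          ← e, ← hTX]
        congr 1
  -- a basis of regular functions
  let b₀ := Module.finBasis K⟮x⟯ F
  choose s hs hsb using fun k => exists_clear hF hx (b₀ k)
  have hsne : ∀ k, aeval x (s k) ≠ 0 := fun k h => hs k (transcendental_iff.1 hx _ h)
  let b := b₀.unitsSMul fun k =>
    Units.mk0 (⟨aeval x (s k), aeval_mem x (s k)⟩ : K⟮x⟯) fun h => hsne k (congrArg Subtype.val h)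
  have hb : ∀ k, b k ∈ regSub (K := K) x := fun k => by
    simpa [b, Module.Basis.unitsSMul_apply, Units.smul_def, IntermediateField.smul_def] using hsb k
  let B := Algebra.traceForm K⟮x⟯ F
  let φ : Fin (genus K F) → F := fun i =>
    (B.toDual (traceForm_nondegenerate K⟮x⟯ F)).symm
      (b.constr K⟮x⟯ fun k => (⟨aeval x (T i (b k) (hb k)), aeval_mem x _⟩ : K⟮x⟯))
  have hφb : ∀ i k, trX K x (φ i * b k) = aeval x (T i (b k) (hb k)) := by
    intro i k
    have := LinearMap.BilinForm.apply_toDual_symm_apply (B := B)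
      (hB := traceForm_nondegenerate K⟮x⟯ F)
      (b.constr K⟮x⟯ fun k => (⟨aeval x (T i (b k) (hb k)), aeval_mem x _⟩ : K⟮x⟯)) (b k)
    rw [Module.Basis.constr_basis, Algebra.traceForm_apply] at this
    exact congrArg Subtype.val this
  have hφT : ∀ i u hu, trX K x (φ i * u) = aeval x (T i u hu) := by
    intro i u hu
    -- clear denominators of the coordinates
    choose r t hrt using fun k =>
      (IntermediateField.mem_adjoin_simple_iff K ((b.repr u k : K⟮x⟯) : F)).1 (b.repr u k).2
    set t' := fun k => if t k = 0 then 1 else t k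
    have ht' : ∀ k, t' k ≠ 0 := fun k => by simp only [t']; split_ifs <;> simp [*]
    set Q := ∏ k, t' k
    have hQ : Q ≠ 0 := Finset.prod_ne_zero_iff.2 fun k _ => ht' k
    have hco : ∀ k, ∃ p : K[X], aeval x Q * ((b.repr u k : K⟮x⟯) : F) = aeval x p := by
      intro k
      rw [hrt k]
      by_cases h0 : t k = 0
      · exact ⟨0, by simp [h0]⟩
      · refine ⟨(∏ j ∈ Finset.univ.erase k, t' j) * r k, ?_⟩
        have : t' k = t k := if_neg h0
        rw [show Q = t' k * ∏ j ∈ Finset.univ.erase k, t' j from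
          (Finset.mul_prod_erase _ _ (Finset.mem_univ k)).symm, this, map_mul, map_mul]
        field_simp [show aeval x (t k) ≠ 0 from fun h => h0 (transcendental_iff.1 hx _ h)]
    choose p hp using hco
    have hsum : aeval x Q * u = ∑ k, aeval x (p k) * b k := by
      conv_lhs => rw [← b.sum_repr u]
      rw [Finset.mul_sum]
      refine Finset.sum_congr rfl fun k _ => ?_
      rw [IntermediateField.smul_def, smul_eq_mul, ← mul_assoc, hp]
    have hTsum : ∀ (S : Finset (Fin (Module.finrank K⟮x⟯ F))),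
        ∃ h, T i (∑ k ∈ S, aeval x (p k) * b k) h = ∑ k ∈ S, p k * T i (b k) (hb k) := by
      intro S
      induction S using Finset.induction with
      | empty =>
        refine ⟨by rw [Finset.sum_empty]; exact zero_mem _, Polynomial.ext fun j => ?_⟩
        rw [hT]; simp
      | @insert a S ha ih =>
        obtain ⟨h, e⟩ := ih
        obtain ⟨h', e'⟩ := hTmul i (p a) (b a) (hb a)
        have hins : ∑ k ∈ insert a S, aeval x (p k) * b k =
            aeval x (p a) * b a + ∑ k ∈ S, aeval x (p k) * b k := Finset.sum_insert ha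
        refine ⟨by rw [hins]; exact add_mem h' h, ?_⟩
        rw [Finset.sum_insert ha (f := fun k => p k * T i (b k) (hb k)), ← e, ← e', ← hTadd]
        congr 1
    obtain ⟨h1, e1⟩ := hTsum Finset.univ
    obtain ⟨h2, e2⟩ := hTmul i Q u hu
    have hmain : aeval x Q * trX K x (φ i * u) = aeval x Q * aeval x (T i u hu) := by
      rw [← trX_mul_of_mem (aeval_mem x Q), mul_left_comm, hsum, ← map_mul, ← e2]
      have : T i (aeval x Q * u) h2 = T i (∑ k, aeval x (p k) * b k) h1 := by
        congr 1
      rw [this, e1, map_sum, Finset.mul_sum, map_sum]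
      refine Finset.sum_congr rfl fun k _ => ?_
      rw [mul_left_comm, trX_mul_of_mem (aeval_mem x _), hφb, map_mul]
    exact mul_left_cancel₀ (fun h => hQ (transcendental_iff.1 hx _ h)) hmain
  refine ⟨φ, ?_, fun i => ⟨fun u hu => ⟨_, hφT i u hu⟩, fun u hu => ?_⟩⟩
  · rw [Fintype.linearIndependent_iff]
    intro a ha k
    have hvk := (mem_riemannRoch_nB hF hx).1 (v k).2
    have hTk : ∀ i, (T i (v k) hvk.1).coeff (m - 1) = if i = k then 1 else 0 := fun i => by
      rw [hT, show m - 1 + 1 = m by omega, ← hbi i k]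
      rfl
    have h0 : ∑ i, a i • T i (v k) hvk.1 = 0 := by
      apply transcendental_iff_injective.1 hx
      simp only [map_sum, map_smul, map_zero, ← hφT]
      have h1 : trX K x ((∑ i, a i • φ i) * (v k : F)) = 0 := by rw [ha, zero_mul, map_zero]
      simpa [Finset.sum_mul, smul_mul_assoc, map_sum, map_smul] using h1
    have := congrArg (fun p : K[X] => p.coeff (m - 1)) h0
    simpa [finsetSum_coeff, hTk] using this
  · -- at infinity
    obtain ⟨M, hM⟩ : ∃ M : ℕ, 2 ≤ M ∧ x ^ M * u ∈ regSub (K := K) x := by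
      refine ⟨2 + ∑ P ∈ (poleDiv hF x⁻¹).support, (P.ord u).natAbs, by omega, fun P hP => ?_⟩
      rcases eq_or_lt_of_le hP with h0 | h0
      · refine (((atLeast_ord (v := P) _).mul (hu P (by rw [P.ord_inv]; omega)))).mono ?_
        rw [place_ord_pow, ← h0]; simp
      · refine ((atLeast_ord (v := P) _).mul (atLeast_ord u)).mono ?_
        have hmem : P ∈ (poleDiv hF x⁻¹).support :=
          Finsupp.mem_support_iff.2 (by rw [poleDiv_apply, P.ord_inv]; omega)
        have hPB := Finset.single_le_sum
          (f := fun P : Place K F => (P.ord u).natAbs) (fun _ _ => Nat.zero_le _) hmem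
        rw [place_ord_pow]
        set S := ∑ P ∈ (poleDiv hF x⁻¹).support, (P.ord u).natAbs
        have h2 : ((2 + S : ℕ) : ℤ) ≤ ((2 + S : ℕ) : ℤ) * P.ord x :=
          le_mul_of_one_le_right (Int.natCast_nonneg _) h0
        push_cast at h2 ⊢
        omega
    obtain ⟨hM2, hMu⟩ := hM
    set t := T i (x ^ M * u) hMu
    have hdeg : t.natDegree ≤ M - 2 := by
      refine natDegree_le_iff_coeff_eq_zero.2 fun j hj => ?_
      rw [hT]
      refine hlam1 i _ ?_
      obtain ⟨d, hd⟩ := Nat.exists_eq_add_of_le (show M ≤ j + 1 by omega)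
      rw [hd, pow_add, mul_assoc, mul_comm (x⁻¹ ^ d), ← mul_assoc, ← mul_assoc, ← mul_pow,
        inv_mul_cancel₀ hx0, one_pow, one_mul, mul_comm]
      exact mul_mem (pow_mem (self_mem_regSub _) d) hu
    refine ⟨t.reflect (M - 2), ?_⟩
    have h1 := hφT i _ hMu
    rw [mul_left_comm, trX_mul_of_mem (pow_mem (mem_adjoin_simple_self K x) _)] at h1
    have hxi : Transcendental K x⁻¹ := transcendental_inv hx
    have h2 := aeval_inv_mul_pow hxi (p := t) hdeg
    rw [inv_inv] at h2
    rw [← h2, eq_comm, ← mul_assoc, mul_right_comm, ← pow_add, show 2 + (M - 2) = M by omega,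
      ← h1, ← mul_assoc, ← mul_pow, inv_mul_cancel₀ hx0, one_pow, one_mul]

end FA.Curve
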