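import Fermat.Agent.Curve.TraceLocal

/-!
# Duality for differentials relative to a function `x`

A differential `φ dx` is recorded by `φ`.  `IsDual` says that the traces of `φ u` are regular at
the finite values of `x` resp. vanish to order two at infinity for all regular `u`; the space of
such `φ` has dimension the genus when `F / K(x)` is separable.  `IsRegDiff` is the condition on
orders, equivalent to `IsDual` in characteristic zero and always implying it.
-/

set_option autoImplicit false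
set_option linter.style.haveILetI false
set_option linter.unusedSectionVars false

noncomputable section

namespace FA.Curve

open AlgebraicCurve FA.ModField Polynomial IntermediateField

variable {K F : Type*} [Field K] [Field F] [Algebra K F]

/-- Functions regular at every place where `x` is finite. -/
def regSub (x : F) : Subalgebra K F where
  carrier := {f | ∀ P : Place K F, 0 ≤ P.ord x → AtLeast P 0 f}
  mul_mem' hf hg P hP := by simpa using (hf P hP).mul (hg P hP)
  one_mem' P _ := Or.inr (by simp)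
  add_mem' hf hg P hP := (hf P hP).add (hg P hP)
  zero_mem' P _ := atLeast_zero
  algebraMap_mem' a P _ := atLeast_algebraMap a

theorem mem_regSub {x f : F} :
    f ∈ regSub (K := K) x ↔ ∀ P : Place K F, 0 ≤ P.ord x → AtLeast P 0 f := Iff.rfl

theorem self_mem_regSub (x : F) : x ∈ regSub (K := K) x := fun _ hP => Or.inr hP

variable (K) in
/-- The trace to `K(x)`, with values in `F`. -/
def trX (x : F) : F →ₗ[K] F :=
  (K⟮x⟯.val.toLinearMap).comp ((Algebra.trace K⟮x⟯ F).restrictScalars K)

theorem trX_mul_coe {x : F} (a : K⟮x⟯) (f : F) : trX K x ((a : F) * f) = (a : F) * trX K x f := by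
  show ((Algebra.trace K⟮x⟯ F ((a : F) * f) : K⟮x⟯) : F) = _
  rw [show (a : F) * f = a • f from rfl, map_smul]
  rfl

theorem trX_mul_of_mem {x a : F} (ha : a ∈ K⟮x⟯) (f : F) : trX K x (a * f) = a * trX K x f :=
  trX_mul_coe ⟨a, ha⟩ f

theorem trX_mem (x f : F) : trX K x f ∈ K⟮x⟯ := (Algebra.trace K⟮x⟯ F f).2

theorem aeval_mem (x : F) (p : K[X]) : aeval x p ∈ K⟮x⟯ := IntermediateField.algebra_adjoin_le_adjoin K _ (aeval_mem_adjoin_singleton K x)

variable (K) in
/-- Regularity of `φ dx`. -/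
def IsRegDiff (x φ : F) : Prop :=
  (∀ (P : Place K F) (c : K), HasValue P x c → AtLeast P (1 - P.ord (x - algebraMap K F c)) φ) ∧
    ∀ P : Place K F, P.ord x < 0 → AtLeast P (1 - P.ord x) φ

variable (K) in
/-- `φ dx` pairs regular functions into regular traces. -/
def IsDual (x φ : F) : Prop :=
  (∀ u ∈ regSub (K := K) x, ∃ p : K[X], trX K x (φ * u) = aeval x p) ∧
    ∀ u ∈ regSub (K := K) x⁻¹, ∃ p : K[X], trX K x (φ * u) = x⁻¹ ^ 2 * aeval x⁻¹ p

theorem adjoin_sub_eq (x : F) (c : K) : K⟮x - algebraMap K F c⟯ = K⟮x⟯ := by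
  refine le_antisymm ?_ ?_ <;> rw [IntermediateField.adjoin_le_iff, Set.singleton_subset_iff]
  · exact sub_mem (mem_adjoin_simple_self K x) (K⟮x⟯.algebraMap_mem c)
  · simpa using add_mem (mem_adjoin_simple_self K (x - algebraMap K F c))
      (K⟮x - algebraMap K F c⟯.algebraMap_mem c)

theorem adjoin_inv_eq (x : F) : K⟮x⁻¹⟯ = K⟮x⟯ := by
  refine le_antisymm ?_ ?_ <;> rw [IntermediateField.adjoin_le_iff, Set.singleton_subset_iff]
  · exact inv_mem (mem_adjoin_simple_self K x)
  · simpa using inv_mem (mem_adjoin_simple_self K x⁻¹)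

variable [IsAlgClosed K] (hF : IsFunctionField K F) {x : F} (hx : Transcendental K x)

include hF hx

omit [IsAlgClosed K] hF in
theorem isFunctionField_simple : IsFunctionField K K⟮x⟯ := by
  refine ⟨AdjoinSimple.gen K x, fun h => hx (h.algHom K⟮x⟯.val), ?_⟩
  have htop : K⟮AdjoinSimple.gen K x⟯ = ⊤ := by
    refine IntermediateField.map_injective K⟮x⟯.val ?_
    rw [adjoin_map, Set.image_singleton, ← AlgHom.fieldRange_eq_map, fieldRange_val]
    rfl
  rw [htop]
  exact Module.Finite.of_surjective (Algebra.linearMap (⊤ : IntermediateField K K⟮x⟯) K⟮x⟯)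
    fun y => ⟨⟨y, IntermediateField.mem_top⟩, rfl⟩

theorem ord_coe (w : Place K F) (f : K⟮x⟯) :
    haveI := hF.finiteDimensional hx
    w.ord (f : F) = (w.ramificationIndex K⟮x⟯ : ℤ) * (w.restrict K⟮x⟯).ord f := by
  haveI := hF.finiteDimensional hx
  exact w.ord_restrict f

/-- Places of `K(x)` where a generator vanishes. -/
theorem place_of_gen {y : K⟮x⟯} (hy : K⟮(y : F)⟯ = K⟮x⟯) (v v' : Place K K⟮x⟯)
    (hv : 0 < v.ord y) (hv' : 0 < v'.ord y) : v.ord y = 1 ∧ v = v' := by
  classical
  have hE := isFunctionField_simple hx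
  have htop : K⟮y⟯ = ⊤ := by
    refine IntermediateField.map_injective K⟮x⟯.val ?_
    rw [adjoin_map, Set.image_singleton, ← AlgHom.fieldRange_eq_map, fieldRange_val]
    exact hy
  have hone : Module.finrank K⟮y⟯ K⟮x⟯ = 1 := by rw [htop]; exact IntermediateField.finrank_top
  have h := sum_ord_le_finrank hE (transcendental_of_ord_ne_zero v hv.ne') {v, v'}
    (by simp [hv, hv'])
  rw [hone] at h
  rcases eq_or_ne v v' with rfl | hne
  · simp at h
    exact ⟨by omega, rfl⟩
  · rw [Finset.sum_pair hne] at h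
    omega

/-- The data attached to a zero of a generator `t` of `K(x)`. -/
theorem restrict_of_pos {t : F} (ht : t ∈ K⟮x⟯) (htop : K⟮t⟯ = K⟮x⟯) {P w : Place K F}
    (hP : 0 < P.ord t) :
    haveI := hF.finiteDimensional hx
    haveI := hasPrincipalDivisors hF
    (P.restrict K⟮x⟯).ord ⟨t, ht⟩ = 1 ∧
      (w ∈ (P.restrict K⟮x⟯).fiber F ↔ 0 < w.ord t) := by
  haveI := hF.finiteDimensional hx
  haveI := hasPrincipalDivisors hF
  have hpos : ∀ w : Place K F, 0 < w.ord t → 0 < (w.restrict K⟮x⟯).ord ⟨t, ht⟩ := fun w hw => by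
    have := ord_coe hF hx w ⟨t, ht⟩
    rw [show ((⟨t, ht⟩ : K⟮x⟯) : F) = t from rfl] at this
    rw [this] at hw
    exact pos_of_mul_pos_right hw (Int.natCast_nonneg _)
  refine ⟨(place_of_gen hF hx (y := ⟨t, ht⟩) htop _ _ (hpos P hP) (hpos P hP)).1,
    fun hw => ?_, fun hw => ?_⟩
  · rw [show t = ((⟨t, ht⟩ : K⟮x⟯) : F) from rfl, ord_coe hF hx, Place.mem_fiber.1 hw]
    exact mul_pos (by have := w.ramificationIndex_pos (F := K⟮x⟯); omega) (hpos P hP)
  · exact Place.mem_fiber.2 (place_of_gen hF hx (y := ⟨t, ht⟩) htop _ _ (hpos w hw) (hpos P hP)).2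

/-- Upper bound for the pole of a trace. -/
theorem atLeast_trX {t : F} (htop : K⟮t⟯ = K⟮x⟯) {P : Place K F} (hP : 0 < P.ord t) (k : ℤ)
    {g : F} (hg : ∀ w : Place K F, 0 < w.ord t → AtLeast w ((k - 1) * w.ord t + 1) g) :
    AtLeast P (k * P.ord t) (trX K x g) := by
  haveI := hF.finiteDimensional hx
  haveI := hasPrincipalDivisors hF
  have ht : t ∈ K⟮x⟯ := htop ▸ mem_adjoin_simple_self K t
  set v := P.restrict K⟮x⟯
  set t' : K⟮x⟯ := ⟨t, ht⟩
  obtain ⟨hv1, -⟩ := restrict_of_pos hF hx ht htop (w := P) hP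
  have hv1' : v.ord t' = 1 := hv1
  have ht0 : t' ≠ 0 := fun h => by simp [h] at hv1'
  have h1 := atLeast_one_trace (isFunctionField_simple hx) hF (v := v)
    (g := t' ^ (1 - k) • g) fun w hw => by
      have hw' := (restrict_of_pos hF hx ht htop (w := w) hP).2.1 hw
      have h0 : AtLeast w ((1 - k) * w.ord t) (t ^ (1 - k)) := Or.inr (by rw [w.ord_zpow])
      have := h0.mul (hg w hw')
      rw [Algebra.smul_def, map_zpow₀]
      exact this.mono (le_of_eq (by ring))
  have h2 : AtLeast v k (Algebra.trace K⟮x⟯ F g) := by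
    have h0 : AtLeast v (k - 1) (t' ^ (k - 1)) := Or.inr (by rw [v.ord_zpow, hv1', mul_one])
    have := h0.mul h1
    rw [map_smul, smul_eq_mul, ← mul_assoc, ← zpow_add₀ ht0, sub_add_sub_cancel', sub_self,
      zpow_zero, one_mul, sub_add_cancel] at this
    exact this
  rcases h2 with h2 | h2
  · exact Or.inl (by show ((Algebra.trace K⟮x⟯ F g : K⟮x⟯) : F) = 0; rw [h2]; rfl)
  · refine Or.inr ?_
    show k * P.ord ((t' : K⟮x⟯) : F) ≤ P.ord ((Algebra.trace K⟮x⟯ F g : K⟮x⟯) : F)
    rw [ord_coe hF hx, ord_coe hF hx, hv1', mul_one, mul_comm]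
    exact mul_le_mul_of_nonneg_left h2 (Int.natCast_nonneg _)

theorem ord_aeval_of_neg {P : Place K F} (hP : P.ord x < 0) {p : K[X]} (hp : p ≠ 0) :
    P.ord (aeval x p) = p.natDegree * P.ord x := by
  have hx0 : x ≠ 0 := fun h => hx (h ▸ isAlgebraic_zero)
  have hc : algebraMap K F p.leadingCoeff ≠ 0 := by simpa using hp
  have hmain : algebraMap K F p.leadingCoeff * x ^ p.natDegree ≠ 0 :=
    mul_ne_zero hc (pow_ne_zero _ hx0)
  have hord : P.ord (algebraMap K F p.leadingCoeff * x ^ p.natDegree) =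
      p.natDegree * P.ord x := by
    rw [P.ord_mul hc (pow_ne_zero _ hx0), place_ord_algebraMap, zero_add, place_ord_pow]
  rw [aeval_eq_sum_range, Finset.sum_range_succ, add_comm, Algebra.smul_def,
    Polynomial.coeff_natDegree]
  refine (ord_add_eq_left hmain (atLeast_sum fun i hi => ?_)).2.trans hord
  rw [Algebra.smul_def]
  refine AtLeast.smul (Or.inr ?_) _
  rw [hord, place_ord_pow]
  have hi' : (i : ℤ) + 1 ≤ p.natDegree := by exact_mod_cast Finset.mem_range.1 hi
  nlinarith

/-- An element of `K(x)` without finite pole is a polynomial. -/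
theorem exists_poly {z : F} (hz : z ∈ K⟮x⟯) (hreg : z ∈ regSub (K := K) x) :
    ∃ p : K[X], z = aeval x p := by
  obtain ⟨r, s, hrs⟩ := (IntermediateField.mem_adjoin_simple_iff K z).1 hz
  rcases eq_or_ne s 0 with rfl | hs
  · exact ⟨0, by simp [hrs]⟩
  have hne : ∀ q : K[X], q ≠ 0 → aeval x q ≠ 0 := fun q hq h =>
    hq (transcendental_iff.1 hx q h)
  suffices key : ∀ (n : ℕ) (r s : K[X]), s ≠ 0 → s.natDegree = n →
      z * aeval x s = aeval x r → ∃ p : K[X], z = aeval x p by
    exact key _ r s hs rfl (by rw [hrs, div_mul_cancel₀ _ (hne s hs)])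
  intro n
  induction n with
  | zero =>
    intro r s hs hdeg h
    obtain ⟨a, ha⟩ := natDegree_eq_zero.1 hdeg
    have ha0 : a ≠ 0 := fun h0 => hs (by rw [← ha, h0, map_zero])
    refine ⟨C a⁻¹ * r, ?_⟩
    rw [map_mul, aeval_C, ← h, ← ha, aeval_C, map_inv₀]
    field_simp [show algebraMap K F a ≠ 0 by simpa using ha0]
  | succ n ih =>
    intro r s hs hdeg h
    obtain ⟨a, ha⟩ := IsAlgClosed.exists_root s (by
      rw [degree_eq_natDegree hs, hdeg]; exact_mod_cast Nat.succ_ne_zero n)
    obtain ⟨s', rfl⟩ := dvd_iff_isRoot.2 ha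
    have hs' : s' ≠ 0 := right_ne_zero_of_mul hs
    obtain ⟨P, hP⟩ := exists_ord_eq_one_zero hF a hx
    have hval : HasValue P x a := Or.inr (by omega)
    have hx0 : x ≠ 0 := fun h0 => hx (by rw [h0]; exact isAlgebraic_zero)
    have hzP := hreg P ((atLeast_iff hx0).1 hval.atLeast)
    have hXa : AtLeast P 1 (aeval x (X - C a)) := Or.inr (by simp; omega)
    have hr : r.eval a = 0 := by
      refine (hval.aeval r).unique ?_
      rw [← h, hasValue_zero_iff, map_mul]
      simpa [mul_comm, mul_assoc] using hzP.mul (hXa.mul (hval.aeval s').atLeast)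
    obtain ⟨r', rfl⟩ := dvd_iff_isRoot.2 hr
    refine ih r' s' hs' ?_ ?_
    · rw [natDegree_mul (X_sub_C_ne_zero a) hs', natDegree_X_sub_C] at hdeg
      omega
    · rw [map_mul, map_mul] at h
      exact mul_left_cancel₀ (hne _ (X_sub_C_ne_zero a)) (by linear_combination h)

omit [IsAlgClosed K] hF in
theorem transcendental_inv : Transcendental K x⁻¹ := fun h => hx (by simpa using h.inv)

theorem IsRegDiff.isDual {φ : F} (h : IsRegDiff K x φ) : IsDual K x φ := by
  have hx0 : x ≠ 0 := fun h0 => hx (h0 ▸ isAlgebraic_zero)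
  -- at a finite place
  have hfin : ∀ (u : F) (P : Place K F), 0 ≤ P.ord x →
      (∀ w : Place K F, 0 ≤ w.ord x → (∀ c, HasValue w x c → HasValue P x c → AtLeast w 0 u)) →
      AtLeast P 0 (trX K x (φ * u)) := by
    intro u P hP hu
    obtain ⟨c, hc⟩ := exists_hasValue hF (Or.inr hP : AtLeast P 0 x)
    have hne : x - algebraMap K F c ≠ 0 := fun h0 =>
      hx (by rw [sub_eq_zero.1 h0]; exact isAlgebraic_algebraMap c)
    have hP' : 0 < P.ord (x - algebraMap K F c) := by have := (atLeast_iff hne).1 hc; omega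
    have := atLeast_trX hF hx (adjoin_sub_eq x c) hP' 0 (g := φ * u) fun w hw => by
      have hwc : HasValue w x c := Or.inr (by omega)
      have h1 := (h.1 w c hwc).mul
        (hu w ((atLeast_iff hx0).1 hwc.atLeast) c hwc hc)
      exact h1.mono (by ring_nf; omega)
    simpa using this
  refine ⟨fun u hu => exists_poly hF hx (trX_mem x _)
    fun P hP => hfin u P hP fun w hw _ _ _ => hu w hw, fun u hu => ?_⟩
  have hxi := transcendental_inv hx
  have hz : x ^ 2 * trX K x (φ * u) ∈ regSub (K := K) x⁻¹ := by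
    intro P hP
    rw [P.ord_inv] at hP
    rcases eq_or_lt_of_le (show P.ord x ≤ 0 by omega) with h0 | h0
    · have h1 := hfin u P h0.ge fun w _ c hw hc => hu w (by
        rw [w.ord_inv]
        have hne : c ≠ 0 := fun hc0 => by
          have := (atLeast_iff hx0).1 (hasValue_zero_iff.1 (hc0 ▸ hc))
          omega
        have := (hw.ord_eq_zero hne).2
        omega)
      simpa [h0] using (atLeast_pow (atLeast_ord (v := P) x) 2).mul h1
    · have := atLeast_trX hF hx (adjoin_inv_eq x) (P := P) (by rw [P.ord_inv]; omega) 2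
        (g := φ * u) fun w hw => by
          rw [w.ord_inv] at hw
          refine ((h.2 w (by omega)).mul (hu w (by rw [w.ord_inv]; omega))).mono (le_of_eq ?_)
          rw [w.ord_inv]; ring
      refine ((atLeast_pow (atLeast_ord (v := P) x) 2).mul this).mono (le_of_eq ?_)
      rw [P.ord_inv]; push_cast; ring
  obtain ⟨p, hp⟩ := exists_poly hF hxi
    (by rw [adjoin_inv_eq]; exact mul_mem (pow_mem (mem_adjoin_simple_self K x) 2) (trX_mem x _))
    hz
  refine ⟨p, ?_⟩
  rw [← hp, ← mul_assoc, ← mul_pow, inv_mul_cancel₀ hx0, one_pow, one_mul]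

/-- A regular approximation multiplier. -/
theorem exists_multiplier {y : F} (hy : Transcendental K y) (c : K) {f : F}
    (hf : ∀ P : Place K F, HasValue P y c → AtLeast P 0 f) :
    ∃ q : F, q * f ∈ regSub (K := K) y ∧ ∀ P : Place K F, HasValue P y c → HasValue P q 1 := by
  classical
  have hy0 : y ≠ 0 := fun h0 => hy (h0 ▸ isAlgebraic_zero)
  set T := (divOf hF f).support.filter fun P => 0 ≤ P.ord y ∧ P.ord f < 0
  have hT : ∀ P ∈ T, ∃ a, HasValue P y a := fun P hP =>
    exists_hasValue hF (Or.inr (Finset.mem_filter.1 hP).2.1)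
  choose! val hval using hT
  set M : ℕ := ∑ P ∈ T, (P.ord f).natAbs
  set q : F := ∏ a ∈ T.image val, (algebraMap K F (c - a)⁻¹ * (y - algebraMap K F a)) ^ M with hq
  have hac : ∀ a ∈ T.image val, a ≠ c := by
    rintro a ha rfl
    obtain ⟨P, hP, rfl⟩ := Finset.mem_image.1 ha
    have := hf P (hval P hP)
    rw [atLeast_iff (fun h0 => by simpa [h0] using (Finset.mem_filter.1 hP).2.2)] at this
    have := (Finset.mem_filter.1 hP).2.2
    omega
  have hfac : ∀ (a : K) (P : Place K F), 0 ≤ P.ord y →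
      AtLeast P 0 ((algebraMap K F (c - a)⁻¹ * (y - algebraMap K F a)) ^ M) := fun a P hP => by
    have h0 : AtLeast P 0 y := Or.inr hP
    have := atLeast_pow ((h0.sub (atLeast_algebraMap a)).smul (c - a)⁻¹) M
    rwa [mul_zero] at this
  have hprod : ∀ (P : Place K F) (U : Finset K), 0 ≤ P.ord y →
      AtLeast P 0 (∏ a ∈ U, (algebraMap K F (c - a)⁻¹ * (y - algebraMap K F a)) ^ M) := by
    intro P U hP
    induction U using Finset.induction with
    | empty => exact Or.inr (by simp)
    | @insert a U ha ih => rw [Finset.prod_insert ha]; simpa using (hfac a P hP).mul ih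
  refine ⟨q, fun P hP => ?_, fun P hP => ?_⟩
  · rcases eq_or_ne f 0 with rfl | hf0
    · simp [atLeast_zero]
    by_cases hPT : P ∈ T
    · rw [hq, ← Finset.mul_prod_erase _ _ (Finset.mem_image_of_mem val hPT)]
      have h1 : AtLeast P M
          ((algebraMap K F (c - val P)⁻¹ * (y - algebraMap K F (val P))) ^ M) := by
        have := atLeast_pow (AtLeast.smul (hval P hPT) (c - val P)⁻¹) M
        rwa [mul_one] at this
      refine ((h1.mul (hprod P _ hP)).mul (atLeast_ord f)).mono ?_
      have := Finset.single_le_sum (f := fun P : Place K F => (P.ord f).natAbs)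
        (fun _ _ => Nat.zero_le _) hPT
      omega
    · have hford : 0 ≤ P.ord f := by
        by_contra hneg
        exact hPT (Finset.mem_filter.2 ⟨Finsupp.mem_support_iff.2 (by simp; omega), hP, by omega⟩)
      have hf0' : AtLeast P 0 f := Or.inr hford
      have := (hprod P (T.image val) hP).mul hf0'
      rw [hq]
      rwa [add_zero] at this
  · suffices ∀ U : Finset K, (∀ a ∈ U, a ≠ c) → HasValue P
        (∏ a ∈ U, (algebraMap K F (c - a)⁻¹ * (y - algebraMap K F a)) ^ M) 1 from this _ hac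
    intro U hU
    induction U using Finset.induction with
    | empty => simpa using hasValue_algebraMap P (1 : K)
    | @insert a U ha ih =>
      rw [Finset.prod_insert ha]
      have h1 := ((hP.sub (hasValue_algebraMap P a)).smul (c - a)⁻¹).pow M
      rw [inv_mul_cancel₀ (sub_ne_zero.2 (hU a (Finset.mem_insert_self a U)).symm), one_pow] at h1
      simpa using h1.mul (ih fun b hb => hU b (Finset.mem_insert_of_mem hb))

/-- In characteristic zero a pole of `φ dx` is detected by some trace. -/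
theorem exists_trX_pole [CharZero K] {y : F} (hytop : K⟮y⟯ = K⟮x⟯) (hy : Transcendental K y)
    {P : Place K F} {c : K} (hP : HasValue P y c) (k : ℤ) {φ : F} (hφ0 : φ ≠ 0)
    (hφ : P.ord φ ≤ (k - 1) * P.ord (y - algebraMap K F c)) :
    ∃ u ∈ regSub (K := K) y, trX K x (φ * u) ≠ 0 ∧
      P.ord (trX K x (φ * u)) < k * P.ord (y - algebraMap K F c) := by
  classical
  haveI := hF.finiteDimensional hx
  haveI := hasPrincipalDivisors hF
  set t := y - algebraMap K F c with htdef
  have htne : t ≠ 0 := fun h0 => hy (by rw [sub_eq_zero.1 h0]; exact isAlgebraic_algebraMap c)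
  have htop : K⟮t⟯ = K⟮x⟯ := (adjoin_sub_eq y c).trans hytop
  have ht : t ∈ K⟮x⟯ := htop ▸ mem_adjoin_simple_self K t
  have hPt : 0 < P.ord t := by have := (atLeast_iff htne).1 hP; omega
  set v := P.restrict K⟮x⟯
  set t' : K⟮x⟯ := ⟨t, ht⟩
  have hv1 : v.ord t' = 1 := (restrict_of_pos hF hx ht htop (w := P) hPt).1
  have ht0 : t' ≠ 0 := fun h => by simp [h] at hv1
  have hfib : ∀ w : Place K F, w ∈ v.fiber F ↔ HasValue w y c := fun w => by
    refine (restrict_of_pos hF hx ht htop (w := w) hPt).2.trans ?_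
    rw [HasValue, atLeast_iff htne]
    exact ⟨fun h => by omega, fun h => by omega⟩
  set τ : F := t ^ (k - 1) * φ⁻¹ with hτ
  have hτ0 : τ ≠ 0 := mul_ne_zero (zpow_ne_zero _ htne) (inv_ne_zero hφ0)
  have hordτ : ∀ w : Place K F, w.ord τ = (k - 1) * w.ord t - w.ord φ := fun w => by
    rw [hτ, w.ord_mul (zpow_ne_zero _ htne) (inv_ne_zero hφ0), w.ord_zpow, w.ord_inv]; ring
  set N : ℤ := 1 + ∑ w ∈ v.fiber F, ((w.ord τ).natAbs : ℤ) with hN
  have hNw : ∀ w ∈ v.fiber F, w.ord τ + 1 ≤ N ∧ 1 ≤ N := fun w hw => by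
    have h1 := Finset.single_le_sum (f := fun w : Place K F => ((w.ord τ).natAbs : ℤ))
      (fun _ _ => Int.natCast_nonneg _) hw
    omega
  obtain ⟨f, hf⟩ := exists_approx (v.fiber F) (fun w => if w = P then τ else 0) N
  have hPv : P ∈ v.fiber F := (hfib P).2 hP
  have hfreg : ∀ w : Place K F, HasValue w y c → AtLeast w 0 f := by
    intro w hw
    have h1 := hf w ((hfib w).2 hw)
    split_ifs at h1 with heq
    · subst heq
      have := (h1.mono (show (0 : ℤ) ≤ N by linarith [(hNw w hPv).2])).add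
        (Or.inr (by rw [hordτ]; linarith) : AtLeast w 0 τ)
      rwa [sub_add_cancel] at this
    · exact (by simpa using h1 : AtLeast w N f).mono (by linarith [(hNw w ((hfib w).2 hw)).2])
  obtain ⟨q, hq, hq1⟩ := exists_multiplier hF hx hy c hfreg
  refine ⟨q * f, hq, ?_⟩
  set g : F := τ⁻¹ * (q * f) with hg
  have hgP : HasValue P g 1 := by
    have h1 : HasValue P (τ⁻¹ * f) 1 := by
      have := (atLeast_ord (v := P) τ⁻¹).mul (by simpa using hf P hPv)
      rw [mul_sub, inv_mul_cancel₀ hτ0] at this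
      rw [HasValue, map_one]
      exact this.mono (by rw [P.ord_inv]; linarith [(hNw P hPv).1])
    rw [hg, mul_left_comm]
    simpa using (hq1 P hP).mul h1
  have hgw : ∀ w ∈ v.fiber F, w ≠ P → AtLeast w 1 g := by
    intro w hw hne
    have h1 := hf w hw
    rw [if_neg hne, sub_zero] at h1
    refine ((atLeast_ord (v := w) τ⁻¹).mul ((hq1 w ((hfib w).1 hw)).atLeast.mul h1)).mono ?_
    rw [w.ord_inv]; linarith [(hNw w hw).1]
  obtain ⟨r, hr, hrv⟩ := hasValue_trace_indicator (isFunctionField_simple hx) hF hPv hgP hgw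
  obtain ⟨hr0, hr1⟩ := hrv.ord_eq_zero (by exact_mod_cast hr.ne')
  have heq : trX K x (φ * (q * f)) = ((t' ^ (k - 1) : K⟮x⟯) : F) *
      ((Algebra.trace K⟮x⟯ F g : K⟮x⟯) : F) := by
    have h2 : φ * (q * f) = ((t' ^ (k - 1) : K⟮x⟯) : F) * g := by
      rw [hg, hτ, show ((t' ^ (k - 1) : K⟮x⟯) : F) = t ^ (k - 1) from map_zpow₀ K⟮x⟯.val t' (k - 1), mul_inv_rev, inv_inv]
      field_simp
    rw [h2, trX_mul_coe]
    rfl
  have hne : t' ^ (k - 1) * Algebra.trace K⟮x⟯ F g ≠ 0 := mul_ne_zero (zpow_ne_zero _ ht0) hr0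
  refine ⟨fun h0 => hne (Subtype.ext (by rw [MulMemClass.coe_mul]; exact heq ▸ h0)), ?_⟩
  rw [heq, ← MulMemClass.coe_mul, show t = ((t' : K⟮x⟯) : F) from rfl, ord_coe hF hx,
    ord_coe hF hx, v.ord_mul (zpow_ne_zero _ ht0) hr0, v.ord_zpow, hv1, hr1]
  have := P.ramificationIndex_pos (F := K⟮x⟯)
  have : (0 : ℤ) < P.ramificationIndex K⟮x⟯ := by exact_mod_cast this
  linarith

/-- In characteristic zero `IsDual` implies regularity. -/
theorem IsDual.isRegDiff [CharZero K] {φ : F} (h : IsDual K x φ) : IsRegDiff K x φ := by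
  have hx0 : x ≠ 0 := fun h0 => hx (h0 ▸ isAlgebraic_zero)
  refine ⟨fun P c hc => ?_, fun P hP => ?_⟩
  · by_contra hcon
    simp only [AtLeast, not_or, not_le] at hcon
    obtain ⟨u, hu, hne, hlt⟩ := exists_trX_pole hF hx rfl hx hc 0 hcon.1 (by linarith)
    obtain ⟨p, hp⟩ := h.1 u hu
    rw [hp] at hne hlt
    have := (atLeast_iff hne).1 (hc.aeval p).atLeast
    simp at hlt
    omega
  · by_contra hcon
    simp only [AtLeast, not_or, not_le] at hcon
    have hv : HasValue P x⁻¹ 0 := hasValue_zero_of_pos (by rw [P.ord_inv]; omega)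
    obtain ⟨u, hu, hne, hlt⟩ := exists_trX_pole hF hx (adjoin_inv_eq x) (transcendental_inv hx)
      hv 2 hcon.1 (by rw [map_zero, sub_zero, P.ord_inv]; linarith)
    obtain ⟨p, hp⟩ := h.2 u hu
    rw [hp] at hne hlt
    rw [map_zero, sub_zero] at hlt
    have := (atLeast_iff hne).1
      ((atLeast_pow (atLeast_ord (v := P) x⁻¹) 2).mul (hv.aeval p).atLeast)
    push_cast at this
    omega

end FA.Curve
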