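import Fermat.Agent.Curve.Riemann

/-!
# Riemann's theorem

The genus is the maximum of `deg D + 1 - l(D)`; it is attained in large degree.
-/

set_option autoImplicit false
set_option linter.style.haveILetI false

noncomputable section

namespace FA.Curve

open AlgebraicCurve FA.ModField IntermediateField

variable {K F : Type*} [Field K] [Field F] [Algebra K F] [IsAlgClosed K]
  (hF : IsFunctionField K F)

/-- The defect `deg D + 1 - l(D)`. -/
def defect (D : Divisor K F) : ℤ := Divisor.degree D + 1 - ell D

include hF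

theorem defect_mono {D D' : Divisor K F} (h : D ≤ D') : defect D ≤ defect D' := by
  have := ell_sub_degree_anti hF h
  simp only [defect]
  omega

theorem mem_add_divOf {D : Divisor K F} {z : F} (hz : z ≠ 0) {f : F} :
    f ∈ riemannRochSpace (D + divOf hF z) ↔ f * z ∈ riemannRochSpace D := by
  simp only [mem_riemannRochSpace, Finsupp.add_apply, divOf_apply]
  refine forall_congr' fun v => ?_
  rcases eq_or_ne f 0 with rfl | hf
  · simp [atLeast_zero]
  rw [atLeast_iff hf, atLeast_iff (mul_ne_zero hf hz), v.ord_mul hf hz]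
  omega

theorem ell_add_divOf (D : Divisor K F) {z : F} (hz : z ≠ 0) :
    ell (D + divOf hF z) = ell D := by
  let e : riemannRochSpace (D + divOf hF z) ≃ₗ[K] riemannRochSpace D :=
    { toFun := fun f => ⟨(f : F) * z, (mem_add_divOf hF hz).1 f.2⟩
      invFun := fun f => ⟨(f : F) * z⁻¹, (mem_add_divOf hF hz).2 (by
        rw [mul_assoc, inv_mul_cancel₀ hz, mul_one]; exact f.2)⟩
      map_add' := fun f g => Subtype.ext (by simp [add_mul])
      map_smul' := fun c f => Subtype.ext (by simp)
      left_inv := fun f => Subtype.ext (by simp [mul_assoc, mul_inv_cancel₀ hz])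
      right_inv := fun f => Subtype.ext (by simp [mul_assoc, inv_mul_cancel₀ hz]) }
  rw [ell, ell, e.finrank_eq]

theorem defect_add_divOf (D : Divisor K F) {z : F} (hz : z ≠ 0) :
    defect (D + divOf hF z) = defect D := by
  rw [defect, defect, ell_add_divOf hF D hz, map_add, degree_divOf, add_zero]

omit hF [IsAlgClosed K] in
theorem exists_ne_zero_of_ell_pos {D : Divisor K F} (h : 0 < ell D) :
    ∃ f ∈ riemannRochSpace D, f ≠ 0 := by
  refine Submodule.exists_mem_ne_zero_of_ne_bot fun hbot => ?_
  rw [ell, hbot, finrank_bot] at h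
  simp at h

theorem exists_effective_of_ell_pos {D : Divisor K F} (h : 0 < ell D) :
    ∃ f : F, f ≠ 0 ∧ 0 ≤ D + divOf hF f := by
  obtain ⟨f, hf, hf0⟩ := exists_ne_zero_of_ell_pos h
  refine ⟨f, hf0, Finsupp.le_def.2 fun v => ?_⟩
  have := (atLeast_iff hf0).1 (mem_riemannRochSpace.1 hf v)
  simp only [Finsupp.coe_zero, Pi.zero_apply, Finsupp.add_apply, divOf_apply]
  omega

theorem ell_eq_zero_of_degree_neg {D : Divisor K F} (h : Divisor.degree D < 0) : ell D = 0 := by
  by_contra hne
  obtain ⟨f, hf0, hle⟩ := exists_effective_of_ell_pos hF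
    (lt_of_le_of_ne (ell_nonneg D) (Ne.symm hne))
  have := degree_nonneg hF hle
  rw [map_add, degree_divOf, add_zero] at this
  omega

theorem ell_le_max (D : Divisor K F) : ell D ≤ max 0 (Divisor.degree D + 1) := by
  rcases lt_or_ge 0 (ell D) with h | h
  · obtain ⟨f, hf0, hle⟩ := exists_effective_of_ell_pos hF h
    have := ell_le_degree_add_one hF hle
    rw [ell_add_divOf hF D hf0, map_add, degree_divOf, add_zero] at this
    omega
  · omega

theorem exists_defect_bound : ∃ M : ℕ, ∀ D : Divisor K F, defect D ≤ M := by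
  obtain ⟨x, hx, hfin⟩ := id hF
  obtain ⟨C, hC⟩ := exists_many_functions hF hx
  have hn : 0 < Module.finrank K⟮x⟯ F := Module.finrank_pos
  set n := Module.finrank K⟮x⟯ F with hn'
  refine ⟨C * n + 1, fun D => ?_⟩
  set P : Divisor K F := D ⊔ 0
  set k : ℕ := (Divisor.degree P).toNat
  have hP : 0 ≤ Divisor.degree P := degree_nonneg hF le_sup_right
  obtain ⟨u, hu, hmem⟩ := hC k
  set A := (k + C) • poleDiv hF x
  have hA : ((k : ℤ) + 1) * n ≤ ell A := by
    haveI := finite_riemannRochSpace hF A
    have := card_le_finrank hu hmem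
    rw [Fintype.card_prod, Fintype.card_fin, Fintype.card_fin] at this
    rw [ell]
    exact_mod_cast this
  have hdA : Divisor.degree A = ((k : ℤ) + C) * n := by
    rw [map_nsmul, degree_poleDiv hF hx, nsmul_eq_mul]; push_cast; rfl
  have hle : A - P ≤ A := sub_le_self A le_sup_right
  have h1 := ell_sub_degree_anti hF hle
  rw [map_sub] at h1
  have hpos : 0 < ell (A - P) := by
    have hk : ((k : ℤ)) = Divisor.degree P := Int.toNat_of_nonneg hP
    have : (k : ℤ) + 1 ≤ ((k : ℤ) + 1) * n := by nlinarith
    omega
  obtain ⟨z, hz0, hz⟩ := exists_effective_of_ell_pos hF hpos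
  have hDA : D ≤ A + divOf hF z := by
    refine le_trans (le_sup_left : D ≤ P) ?_
    rw [sub_add_eq_add_sub, sub_nonneg] at hz
    exact hz
  refine (defect_mono hF hDA).trans ?_
  rw [defect_add_divOf hF A hz0, defect, hdA]
  push_cast
  nlinarith

omit [IsAlgClosed K] hF in
variable (K F) in
/-- The genus, as the maximal defect `deg D + 1 - l(D)`. -/
def genus : ℕ := sSup (Set.range fun D : Divisor K F => (defect D).toNat)

theorem bddAbove_defect : BddAbove (Set.range fun D : Divisor K F => (defect D).toNat) := by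
  obtain ⟨M, hM⟩ := exists_defect_bound hF
  refine ⟨M, ?_⟩
  rintro _ ⟨D, rfl⟩
  have := hM D
  show (defect D).toNat ≤ M
  omega

theorem defect_le_genus (D : Divisor K F) : defect D ≤ genus K F := by
  have h : (defect D).toNat ≤ genus K F := le_csSup (bddAbove_defect hF) ⟨D, rfl⟩
  omega

theorem riemann_inequality (D : Divisor K F) :
    Divisor.degree D + 1 - genus K F ≤ ell D := by
  have := defect_le_genus hF D
  simp only [defect] at this
  omega

theorem exists_defect_eq_genus : ∃ D : Divisor K F, defect D = genus K F := by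
  obtain ⟨D, hD⟩ := Nat.sSup_mem (Set.range_nonempty _) (bddAbove_defect hF)
  have hD' : (defect D).toNat = genus K F := hD
  have h0 : defect (0 : Divisor K F) = 0 := by simp [defect, ell_zero hF]
  rcases le_or_gt 0 (defect D) with h | h
  · exact ⟨D, by omega⟩
  · exact ⟨0, by omega⟩

theorem exists_threshold :
    ∃ c : ℤ, ∀ D : Divisor K F, c ≤ Divisor.degree D →
      ell D = Divisor.degree D + 1 - genus K F := by
  obtain ⟨D₀, hD₀⟩ := exists_defect_eq_genus hF
  refine ⟨Divisor.degree D₀ + genus K F, fun D hD => ?_⟩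
  have hpos : 0 < ell (D - D₀) := by
    have := riemann_inequality hF (D - D₀)
    rw [map_sub] at this
    omega
  obtain ⟨f, hf0, hle⟩ := exists_effective_of_ell_pos hF hpos
  have hle' : D₀ ≤ D + divOf hF f := by
    rw [sub_add_eq_add_sub, sub_nonneg] at hle
    exact hle
  have h1 := defect_mono hF hle'
  rw [defect_add_divOf hF D hf0, hD₀] at h1
  have h2 := defect_le_genus hF D
  simp only [defect] at h1 h2
  omega

theorem exists_ord_eq_one_zero (a : K) {x : F} (hx : Transcendental K x) :
    ∃ v : Place K F, 0 < v.ord (x - algebraMap K F a) := by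
  have h : Transcendental K (x - algebraMap K F a) := fun h =>
    hx (by simpa using h.add (isAlgebraic_algebraMap a))
  obtain ⟨v, hv⟩ := exists_ord_neg hF
    (g := (x - algebraMap K F a)⁻¹) (fun hi => h (by simpa using hi.inv))
  exact ⟨v, by rw [v.ord_inv] at hv; omega⟩

theorem infinite_places : Infinite (Place K F) := by
  obtain ⟨x, hx, -⟩ := id hF
  choose v hv using fun a : K => exists_ord_eq_one_zero hF a hx
  refine Infinite.of_injective v fun a b hab => ?_
  by_contra hne
  have h := (AtLeast.sub (Or.inr (Int.add_one_le_iff.2 (hv a)) : AtLeast (v a) (0 + 1) _)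
    (Or.inr (Int.add_one_le_iff.2 (hab ▸ hv b)) : AtLeast (v a) (0 + 1)
      (x - algebraMap K F b)))
  rw [sub_sub_sub_cancel_left, ← map_sub, atLeast_iff (by simpa [sub_eq_zero] using Ne.symm hne),
    place_ord_algebraMap] at h
  omega

theorem exists_pole_only (v : Place K F) :
    ∃ f : F, v.ord f < 0 ∧ ∀ w : Place K F, w ≠ v → 0 ≤ w.ord f := by
  classical
  set k : ℕ := genus K F + 1
  have h := riemann_inequality hF (Finsupp.single v (k : ℤ))
  rw [Divisor.degree_single, hF.deg_eq_one] at h
  by_contra hno
  push Not at hno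
  have hle : riemannRochSpace (Finsupp.single v (k : ℤ)) ≤ riemannRochSpace 0 := by
    intro f hf
    rw [mem_riemannRochSpace] at hf ⊢
    intro w
    simp only [Finsupp.coe_zero, Pi.zero_apply, neg_zero]
    rcases eq_or_ne f 0 with rfl | hf0
    · exact atLeast_zero
    rcases eq_or_ne w v with rfl | hw
    · refine Or.inr ?_
      by_contra hneg
      push Not at hneg
      obtain ⟨u, hu, hu'⟩ := hno f hneg
      have := (atLeast_iff hf0).1 (hf u)
      rw [Finsupp.single_eq_of_ne hu] at this
      omega
    · simpa [Finsupp.single_eq_of_ne hw] using hf w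
  haveI := finite_riemannRochSpace hF (0 : Divisor K F)
  have h2 : ell (Finsupp.single v (k : ℤ)) ≤ ell (0 : Divisor K F) :=
    Int.ofNat_le.2 (Submodule.finrank_mono hle)
  rw [ell_zero hF] at h2
  push_cast at h
  omega

end FA.Curve
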