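import Fermat.Agent.Curve.Basic

/-!
# Degree of principal divisors and Riemann's theorem

The degree of the zero divisor of a nonconstant `x` is `[F : K(x)]`; hence principal divisors
have degree zero; `l(D) ≥ deg D + 1 - g` for every `D`, with equality in large degree.
-/

set_option autoImplicit false
set_option linter.style.haveILetI false

noncomputable section

namespace FA.Curve

open AlgebraicCurve FA.ModField Polynomial IntermediateField

variable {K F : Type*} [Field K] [Field F] [Algebra K F] [IsAlgClosed K]
  (hF : IsFunctionField K F)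

include hF

/-- The divisor of poles. -/
def poleDiv (x : F) : Divisor K F :=
  Finsupp.ofSupportFinite (fun v => max 0 (-v.ord x)) <| (finite_support hF x).subset fun v hv => by
    simp only [Function.mem_support, ne_eq] at hv
    intro h
    exact hv (by rw [h]; simp)

theorem poleDiv_apply (x : F) (v : Place K F) : poleDiv hF x v = max 0 (-v.ord x) := rfl

theorem poleDiv_nonneg (x : F) : 0 ≤ poleDiv hF x := Finsupp.le_def.2 fun v => by
  rw [poleDiv_apply]; exact le_max_left _ _

theorem degree_poleDiv_le {x : F} (hx : Transcendental K x) :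
    Divisor.degree (poleDiv hF x) ≤ Module.finrank K⟮x⟯ F := by
  classical
  have hxi : Transcendental K x⁻¹ := fun h => hx (by simpa using h.inv)
  have hadj : K⟮x⁻¹⟯ = K⟮x⟯ := by
    refine le_antisymm ?_ ?_ <;> rw [IntermediateField.adjoin_le_iff, Set.singleton_subset_iff]
    · exact inv_mem (IntermediateField.mem_adjoin_simple_self K x)
    · simpa using inv_mem (IntermediateField.mem_adjoin_simple_self K x⁻¹)
  have h := sum_ord_le_finrank hF hxi (poleDiv hF x).support fun v hv => by
    rw [Finsupp.mem_support_iff, poleDiv_apply] at hv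
    rw [v.ord_inv]; omega
  rw [hadj] at h
  rw [degree_eq_sum hF, Finsupp.sum]
  refine le_trans (le_of_eq (Finset.sum_congr rfl fun v hv => ?_)) h
  rw [Finsupp.mem_support_iff, poleDiv_apply] at hv
  rw [v.ord_inv, poleDiv_apply]; omega

theorem exists_many_functions {x : F} (hx : Transcendental K x) :
    ∃ C : ℕ, ∀ k : ℕ, ∃ u : Fin (k + 1) × Fin (Module.finrank K⟮x⟯ F) → F,
      LinearIndependent K u ∧
        ∀ j, u j ∈ riemannRochSpace ((k + C) • poleDiv hF x) := by
  classical
  haveI := hF.finiteDimensional hx
  set n := Module.finrank K⟮x⟯ F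
  let b := Module.finBasis K⟮x⟯ F
  open scoped algebraAdjoinAdjoin in
  have hint : ∀ i, ∃ a : Algebra.adjoin K ({x} : Set F), a ≠ 0 ∧
      IsIntegral (Algebra.adjoin K ({x} : Set F)) ((a : F) * b i) := fun i =>
    ((IsFractionRing.isAlgebraic_iff (Algebra.adjoin K ({x} : Set F)) K⟮x⟯ F).2
      (Algebra.IsAlgebraic.isAlgebraic (b i))).exists_integral_multiple.imp
        fun a ha => ⟨ha.1, by simpa [Algebra.smul_def] using ha.2⟩
  choose a ha0 ha using hint
  set w : Fin n → F := fun i => (a i : F) * b i with hw
  have hamem : ∀ i, (a i : F) ∈ K⟮x⟯ := fun i =>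
    IntermediateField.algebra_adjoin_le_adjoin K _ (a i).2
  have hli : LinearIndependent K⟮x⟯ w := by
    have hne : ∀ i, (⟨(a i : F), hamem i⟩ : K⟮x⟯) ≠ 0 := fun i h =>
      ha0 i (Subtype.ext (congrArg (fun y : K⟮x⟯ => (y : F)) h))
    convert b.linearIndependent.units_smul fun i => Units.mk0 _ (hne i) using 1
    funext i
    simp [w, Units.smul_def, IntermediateField.smul_def]
  -- bound on the poles
  set C : ℕ := ∑ i, ∑ v ∈ (poleDiv hF x).support, (v.ord (w i)).natAbs with hC
  refine ⟨C, fun k => ?_⟩
  refine ⟨fun j => x ^ (j.1 : ℕ) * w j.2, ?_, fun j => ?_⟩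
  · have hpow : LinearIndependent K fun m : Fin (k + 1) => (AdjoinSimple.gen K x) ^ (m : ℕ) := by
      have hinj : Function.Injective
          (Polynomial.aeval (R := K) (AdjoinSimple.gen K x)).toLinearMap := by
        intro p q hpq
        have h1 : aeval x p = aeval x q := by
          have := congrArg (fun y : K⟮x⟯ => (y : F)) hpq
          simpa [IntermediateField.aeval_coe] using this
        exact transcendental_iff_injective.1 hx h1
      have := ((Polynomial.basisMonomials K).linearIndependent.map'
        _ (LinearMap.ker_eq_bot.2 hinj)).comp (fun m : Fin (k + 1) => (m : ℕ)) Fin.val_injective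
      have e : (fun m : Fin (k + 1) => (AdjoinSimple.gen K x) ^ (m : ℕ)) =
          ((Polynomial.aeval (R := K) (AdjoinSimple.gen K x)).toLinearMap ∘
            Polynomial.basisMonomials K) ∘ fun m : Fin (k + 1) => (m : ℕ) := by
        funext m
        simp [Polynomial.coe_basisMonomials]
      rw [e]
      exact this
    convert linearIndependent_smul hpow hli using 1
    funext j
    simp [IntermediateField.smul_def]
  · rw [mem_riemannRochSpace]
    intro v
    simp only [Finsupp.smul_apply, nsmul_eq_mul, poleDiv_apply]
    rcases le_or_gt 0 (v.ord x) with hv | hv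
    · rw [max_eq_left (by omega), mul_zero, neg_zero, atLeast_zero_iff_mem]
      have hxmem := mem_place_of_ord_nonneg v hv
      exact mul_mem (pow_mem hxmem _) (mem_place_of_isIntegral_adjoin hxmem (ha j.2))
    · rw [max_eq_right (by omega)]
      refine ((atLeast_pow (atLeast_ord x) (j.1 : ℕ)).mul (atLeast_ord (w j.2))).mono ?_
      have hC' : (v.ord (w j.2)).natAbs ≤ C := by
        refine le_trans ?_ (Finset.single_le_sum
          (f := fun i => ∑ v ∈ (poleDiv hF x).support, (v.ord (w i)).natAbs)
          (fun _ _ => Nat.zero_le _) (Finset.mem_univ j.2))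
        refine Finset.single_le_sum (f := fun v : Place K F => (v.ord (w j.2)).natAbs)
          (fun _ _ => Nat.zero_le _) ?_
        rw [Finsupp.mem_support_iff, poleDiv_apply]; omega
      have hj : (j.1 : ℕ) ≤ k := Nat.lt_succ_iff.1 j.1.2
      have h1 : ((j.1 : ℕ) : ℤ) * (-v.ord x) ≤ (k : ℤ) * (-v.ord x) :=
        mul_le_mul_of_nonneg_right (by omega) (by omega)
      have h2 : (C : ℤ) ≤ (C : ℤ) * (-v.ord x) := by nlinarith
      have h3 : -(C : ℤ) ≤ v.ord (w j.2) := by omega
      push_cast
      nlinarith

omit hF [IsAlgClosed K] in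
theorem card_le_finrank {D : Divisor K F} [Module.Finite K (riemannRochSpace D)] {ι : Type*}
    [Fintype ι] {u : ι → F} (hu : LinearIndependent K u) (hmem : ∀ j, u j ∈ riemannRochSpace D) :
    Fintype.card ι ≤ Module.finrank K (riemannRochSpace D) := by
  have : LinearIndependent K (fun j => (⟨u j, hmem j⟩ : riemannRochSpace D)) :=
    LinearIndependent.of_comp (riemannRochSpace D).subtype hu
  exact this.fintype_card_le_finrank

omit hF in
/-- `L(0)` has dimension one once every nonconstant function has a pole. -/
theorem finite_zero_of (hpole : ∀ g : F, Transcendental K g → ∃ v : Place K F, v.ord g < 0) :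
    Module.Finite K (riemannRochSpace (0 : Divisor K F)) ∧
      Module.finrank K (riemannRochSpace (0 : Divisor K F)) = 1 := by
  have heq : riemannRochSpace (0 : Divisor K F) = Submodule.span K ({1} : Set F) := by
    refine le_antisymm (fun f hf => mem_span_of_isConst (fun v => ?_) hpole) ?_
    · simpa using (mem_riemannRochSpace.1 hf) v
    · rw [Submodule.span_le, Set.singleton_subset_iff, SetLike.mem_coe, mem_riemannRochSpace]
      intro v
      exact Or.inr (by simp)
  rw [heq]
  exact ⟨Module.Finite.span_of_finite K (Set.finite_singleton _),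
    finrank_span_singleton one_ne_zero⟩

theorem finite_riemannRochSpace (D : Divisor K F) :
    Module.Finite K (riemannRochSpace D) := by
  classical
  haveI := (finite_zero_of fun g hg => exists_ord_neg hF hg).1
  haveI := (finite_of_le hF (D := 0) (D' := D ⊔ 0) le_sup_right).1
  exact Submodule.finiteDimensional_of_le
    (riemannRochSpace_mono (le_sup_left : D ≤ D ⊔ 0))

/-- The dimension of `L(D)`. -/
def ell (D : Divisor K F) : ℤ := Module.finrank K (riemannRochSpace D)

omit hF [IsAlgClosed K] in
theorem ell_nonneg (D : Divisor K F) : 0 ≤ ell D := Int.natCast_nonneg _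

theorem ell_zero : ell (0 : Divisor K F) = 1 := by
  rw [ell, (finite_zero_of fun g hg => exists_ord_neg hF hg).2]; rfl

theorem ell_sub_degree_anti {D D' : Divisor K F} (h : D ≤ D') :
    ell D' - Divisor.degree D' ≤ ell D - Divisor.degree D := by
  haveI := finite_riemannRochSpace hF D
  exact (finite_of_le hF h).2

theorem ell_mono {D D' : Divisor K F} (h : D ≤ D') : ell D ≤ ell D' := by
  haveI := finite_riemannRochSpace hF D'
  exact Int.ofNat_le.2 (Submodule.finrank_mono (riemannRochSpace_mono h))

theorem ell_le_degree_add_one {D : Divisor K F} (h : 0 ≤ D) :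
    ell D ≤ Divisor.degree D + 1 := by
  have h1 := ell_sub_degree_anti hF h
  rw [ell_zero hF, map_zero] at h1
  omega

theorem degree_poleDiv {x : F} (hx : Transcendental K x) :
    Divisor.degree (poleDiv hF x) = Module.finrank K⟮x⟯ F := by
  refine le_antisymm (degree_poleDiv_le hF hx) ?_
  by_contra hlt
  push Not at hlt
  obtain ⟨C, hC⟩ := exists_many_functions hF hx
  haveI := hF.finiteDimensional hx
  obtain ⟨u, hu, hmem⟩ := hC (C * Module.finrank K⟮x⟯ F + 1)
  haveI := finite_riemannRochSpace hF
    (((C * Module.finrank K⟮x⟯ F + 1) + C) • poleDiv hF x)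
  have h1 := card_le_finrank hu hmem
  have h2 := ell_le_degree_add_one hF
    (nsmul_nonneg (poleDiv_nonneg hF x) ((C * Module.finrank K⟮x⟯ F + 1) + C))
  rw [ell, map_nsmul, nsmul_eq_mul] at h2
  simp only [Fintype.card_prod, Fintype.card_fin] at h1
  have hd := degree_nonneg hF (poleDiv_nonneg hF x)
  set n := Module.finrank K⟮x⟯ F
  set m := C * n + 1 with hm
  set dg := Divisor.degree (poleDiv hF x)
  push_cast at h2
  have h3 : ((m : ℤ) + 1) * n ≤ ((m : ℤ) + C) * dg + 1 := by
    refine le_trans ?_ h2
    exact_mod_cast h1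
  have h4 : ((m : ℤ) + C) * dg ≤ ((m : ℤ) + C) * ((n : ℤ) - 1) :=
    mul_le_mul_of_nonneg_left (by omega) (by positivity)
  have hm' : (m : ℤ) = C * n + 1 := by rw [hm]; push_cast; ring
  nlinarith

theorem degree_divOf (f : F) : Divisor.degree (divOf hF f) = 0 := by
  by_cases hf : Transcendental K f
  · have hfi : Transcendental K f⁻¹ := fun h => hf (by simpa using h.inv)
    have hadj : K⟮f⁻¹⟯ = K⟮f⟯ := by
      refine le_antisymm ?_ ?_ <;> rw [IntermediateField.adjoin_le_iff, Set.singleton_subset_iff]
      · exact inv_mem (IntermediateField.mem_adjoin_simple_self K f)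
      · simpa using inv_mem (IntermediateField.mem_adjoin_simple_self K f⁻¹)
    have heq : divOf hF f = poleDiv hF f⁻¹ - poleDiv hF f := by
      ext v
      simp only [divOf_apply, Finsupp.sub_apply, poleDiv_apply, v.ord_inv]
      omega
    rw [heq, map_sub, degree_poleDiv hF hfi, degree_poleDiv hF hf, hadj, sub_self]
  · have heq : divOf hF f = 0 := by
      ext v
      rw [divOf_apply, Finsupp.zero_apply]
      by_contra h
      exact hf (transcendental_of_ord_ne_zero v h)
    rw [heq, map_zero]

theorem hasPrincipalDivisors : HasPrincipalDivisors K F :=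
  ⟨fun f _ => ⟨divOf hF f, fun v => divOf_apply hF f v, degree_divOf hF f⟩⟩

end FA.Curve
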