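import Fermat.Agent.ModField.Curve
import Fermat.Prelude.Def_AlgebraicCurve_Repartitions
import Fermat.Prelude.Def_AlgebraicCurve_DivisorPushPull

/-!
# Function fields of one variable over an algebraically closed field: elementary theory

`IsFunctionField K F` says that `F` is finite over `K(x)` for some transcendental `x`; no
separability is required.  This file has the calculus of orders at a place, approximation at
finitely many places, the equality "degree of the zero divisor of `x` = `[F : K(x)]`" (through the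
count of independent elements and Riemann's argument), hence `HasPrincipalDivisors`, and the
finiteness of the Riemann-Roch spaces.
-/

set_option autoImplicit false
set_option linter.style.haveILetI false

noncomputable section

namespace FA.Curve

open AlgebraicCurve FA.ModField Polynomial IntermediateField

variable {K F : Type*} [Field K] [Field F] [Algebra K F]

variable (K F) in
/-- `F` is a function field in one variable over `K`. -/
def IsFunctionField : Prop :=
  ∃ x : F, Transcendental K x ∧ FiniteDimensional K⟮x⟯ F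

theorem IsFunctionField.isCurve (hF : IsFunctionField K F) : IsCurve K F :=
  isCurve_of_finiteDimensional hF.choose_spec.2

theorem IsFunctionField.finiteDimensional (hF : IsFunctionField K F) {x : F}
    (hx : Transcendental K x) : FiniteDimensional K⟮x⟯ F :=
  hF.isCurve x hx

theorem IsFunctionField.deg_eq_one [IsAlgClosed K] (hF : IsFunctionField K F) (v : Place K F) :
    v.deg = 1 :=
  place_deg_eq_one hF.isCurve v

/-! ### Orders -/

/-- `f` vanishes at `v` to order at least `n` (or is zero). -/
def AtLeast (v : Place K F) (n : ℤ) (f : F) : Prop := f = 0 ∨ n ≤ v.ord f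

section AtLeast

variable {v : Place K F} {n m : ℤ} {f g : F}

theorem atLeast_zero : AtLeast v n (0 : F) := Or.inl rfl

theorem atLeast_iff (hf : f ≠ 0) : AtLeast v n f ↔ n ≤ v.ord f := or_iff_right hf

theorem atLeast_ord (f : F) : AtLeast v (v.ord f) f := Or.inr le_rfl

theorem AtLeast.mono (h : AtLeast v n f) (hm : m ≤ n) : AtLeast v m f :=
  h.imp_right hm.trans

theorem AtLeast.add (hf : AtLeast v n f) (hg : AtLeast v n g) : AtLeast v n (f + g) := by
  rcases eq_or_ne (f + g) 0 with h | h
  · exact Or.inl h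
  · exact Or.inr (place_ord_add v h hf hg)

theorem AtLeast.neg (hf : AtLeast v n f) : AtLeast v n (-f) := by
  rcases hf with rfl | hf
  · simpa using atLeast_zero
  · exact Or.inr (by rwa [place_ord_neg])

theorem AtLeast.sub (hf : AtLeast v n f) (hg : AtLeast v n g) : AtLeast v n (f - g) := by
  rw [sub_eq_add_neg]; exact hf.add hg.neg

theorem atLeast_sum {ι : Type*} {s : Finset ι} {u : ι → F} (h : ∀ i ∈ s, AtLeast v n (u i)) :
    AtLeast v n (∑ i ∈ s, u i) := by
  classical
  induction s using Finset.induction with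
  | empty => simpa using atLeast_zero
  | @insert a s ha ih =>
    rw [Finset.sum_insert ha]
    exact (h a (Finset.mem_insert_self a s)).add
      (ih fun i hi => h i (Finset.mem_insert_of_mem hi))

theorem AtLeast.mul (hf : AtLeast v n f) (hg : AtLeast v m g) : AtLeast v (n + m) (f * g) := by
  rcases eq_or_ne f 0 with rfl | hf0
  · simpa using atLeast_zero
  rcases eq_or_ne g 0 with rfl | hg0
  · simpa using atLeast_zero
  rw [atLeast_iff hf0] at hf
  rw [atLeast_iff hg0] at hg
  exact Or.inr (by rw [v.ord_mul hf0 hg0]; omega)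

theorem atLeast_algebraMap (a : K) : AtLeast v 0 (algebraMap K F a) :=
  Or.inr (place_ord_algebraMap v a).ge

theorem AtLeast.smul (hf : AtLeast v n f) (a : K) : AtLeast v n (algebraMap K F a * f) := by
  simpa using (atLeast_algebraMap (v := v) a).mul hf

theorem atLeast_zero_iff_mem : AtLeast v 0 f ↔ f ∈ v.toValuationSubring := by
  rw [mem_place_iff]
  refine ⟨fun h => h.elim (fun h => by simp [h]) id, Or.inr⟩

theorem eq_zero_of_atLeast_all (h : ∀ k : ℤ, AtLeast v k f) : f = 0 := by
  rcases h (v.ord f + 1) with h | h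
  · exact h
  · omega

theorem ord_add_eq_left (hf : f ≠ 0) (hg : AtLeast v (v.ord f + 1) g) :
    f + g ≠ 0 ∧ v.ord (f + g) = v.ord f := by
  have hne : f + g ≠ 0 := by
    intro h
    rw [add_eq_zero_iff_eq_neg'.1 h] at hg
    rcases hg with hg | hg
    · exact hf (neg_eq_zero.1 hg)
    · rw [place_ord_neg] at hg; omega
  refine ⟨hne, le_antisymm ?_ ?_⟩
  · by_contra hlt
    push Not at hlt
    have h := (AtLeast.sub (Or.inr (by omega : v.ord f + 1 ≤ v.ord (f + g))) hg)
    rw [add_sub_cancel_right, atLeast_iff hf] at h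
    omega
  · exact place_ord_add v hne (Or.inr le_rfl) (hg.mono (by omega))

theorem atLeast_pow {t : F} (h : AtLeast v n t) (k : ℕ) : AtLeast v (k * n) (t ^ k) := by
  induction k with
  | zero => exact Or.inr (by simp)
  | succ k ih =>
    rw [pow_succ]
    refine (ih.mul h).mono (le_of_eq ?_)
    push_cast; ring

end AtLeast

theorem mem_riemannRochSpace {D : Divisor K F} {f : F} :
    f ∈ riemannRochSpace D ↔ ∀ v : Place K F, AtLeast v (-D v) f :=
  mem_riemannRochSpace_iff

theorem riemannRochSpace_mono {D D' : Divisor K F} (h : D ≤ D') :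
    riemannRochSpace D ≤ riemannRochSpace D' := fun f hf => by
  rw [mem_riemannRochSpace] at hf ⊢
  exact fun v => (hf v).mono (neg_le_neg (Finsupp.le_def.1 h v))

theorem mem_place_of_isIntegral_adjoin {v : Place K F} {x f : F}
    (hx : x ∈ v.toValuationSubring) (hf : IsIntegral (Algebra.adjoin K ({x} : Set F)) f) :
    f ∈ v.toValuationSubring := by
  have hle : ∀ a ∈ Algebra.adjoin K ({x} : Set F), a ∈ v.toValuationSubring := by
    intro a ha
    induction ha using Algebra.adjoin_induction with
    | mem y hy => rcases hy with rfl; exact hx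
    | algebraMap c => exact v.algebraMap_mem' c
    | add a b _ _ ha hb => exact add_mem ha hb
    | mul a b _ _ ha hb => exact mul_mem ha hb
  letI : Algebra (Algebra.adjoin K ({x} : Set F)) v.toValuationSubring :=
    ((Algebra.adjoin K ({x} : Set F)).val.toRingHom.codRestrict v.toValuationSubring.toSubring
      fun a => hle a a.2).toAlgebra
  haveI : IsScalarTower (Algebra.adjoin K ({x} : Set F)) v.toValuationSubring F :=
    IsScalarTower.of_algebraMap_eq fun _ => rfl
  obtain ⟨y, hy⟩ := IsIntegrallyClosed.isIntegral_iff.1 (hf.tower_top (A := v.toValuationSubring))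
  exact hy ▸ y.2

/-! ### Approximation -/

theorem exists_indicator (v : Place K F) (S : Finset (Place K F)) (hv : v ∉ S) (N : ℕ) :
    ∃ e : F, AtLeast v N (e - 1) ∧ ∀ w ∈ S, AtLeast w N e := by
  obtain ⟨f, hf0, hfv, hfS⟩ := exists_separating v S hv
  set M := N + 1 with hM
  have hp : f ^ M ≠ 0 := pow_ne_zero _ hf0
  have h1 : f ^ M + 1 ≠ 0 ∧ v.ord (f ^ M + 1) = v.ord (f ^ M) := by
    refine ord_add_eq_left hp (Or.inr ?_)
    rw [v.ord_one, place_ord_pow]
    have : (M : ℤ) * v.ord f ≤ -1 := by
      have : (1 : ℤ) ≤ M := by omega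
      nlinarith
    omega
  refine ⟨f ^ M / (f ^ M + 1), Or.inr ?_, fun w hw => Or.inr ?_⟩
  · rw [div_sub_one h1.1, sub_add_cancel_left, div_eq_mul_inv,
      v.ord_mul (neg_ne_zero.2 one_ne_zero) (inv_ne_zero h1.1), place_ord_neg, v.ord_one,
      v.ord_inv, h1.2, place_ord_pow]
    have : (M : ℤ) * v.ord f ≤ -M := by nlinarith
    omega
  · have hwpos := hfS w hw
    have hMw : (M : ℤ) ≤ M * w.ord f := by nlinarith
    have h2 : (1 : F) + f ^ M ≠ 0 ∧ w.ord (1 + f ^ M) = w.ord (1 : F) :=
      ord_add_eq_left one_ne_zero (Or.inr (by rw [w.ord_one, place_ord_pow]; omega))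
    rw [add_comm] at h2
    rw [div_eq_mul_inv, w.ord_mul hp (inv_ne_zero h1.1), w.ord_inv, h2.2, w.ord_one,
      place_ord_pow]
    omega

theorem exists_approx (S : Finset (Place K F)) (x : Place K F → F) (N : ℤ) :
    ∃ f : F, ∀ w ∈ S, AtLeast w N (f - x w) := by
  classical
  set M : ℕ := N.natAbs + ∑ v ∈ S, ∑ w ∈ S, (w.ord (x v)).natAbs with hM
  have hbound : ∀ v ∈ S, ∀ w ∈ S, N ≤ M + w.ord (x v) := by
    intro v hv w hw
    have h1 := Finset.single_le_sum (f := fun w : Place K F => (w.ord (x v)).natAbs)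
      (fun _ _ => Nat.zero_le _) hw
    have h2 := Finset.single_le_sum (f := fun v => ∑ w ∈ S, (w.ord (x v)).natAbs)
      (fun _ _ => Nat.zero_le _) hv
    omega
  choose e he using fun v : Place K F =>
    exists_indicator v (S.erase v) (Finset.notMem_erase v S) M
  refine ⟨∑ v ∈ S, e v * x v, fun w hw => ?_⟩
  rw [← Finset.add_sum_erase _ _ hw, add_sub_right_comm, ← sub_one_mul]
  refine AtLeast.add ?_ (atLeast_sum fun v hv => ?_)
  · exact ((he w).1.mul (atLeast_ord _)).mono (hbound w hw w hw)
  · obtain ⟨hvw, hvS⟩ := Finset.mem_erase.1 hv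
    exact (((he v).2 w (Finset.mem_erase.2 ⟨hvw.symm, hw⟩)).mul (atLeast_ord _)).mono
      (hbound v hvS w hw)

/-! ### Valuation rings are places -/

section ValuationRing

variable [IsAlgClosed K] (hF : IsFunctionField K F)

include hF

theorem finite_values (O : ValuationSubring F) (hK : ∀ a : K, algebraMap K F a ∈ O) {t : F}
    (ht : t ≠ 0) (htm : O.valuation t < 1) :
    {γ | ∃ x ∈ O, O.valuation x = γ ∧ O.valuation t < γ}.Finite := by
  classical
  have hc1 : ∀ a : K, a ≠ 0 → O.valuation (algebraMap K F a) = 1 := by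
    intro a ha
    have h1 := (O.valuation_le_one_iff _).2 (hK a)
    have h2 := (O.valuation_le_one_iff _).2 (hK a⁻¹)
    rw [map_inv₀, map_inv₀] at h2
    exact le_antisymm h1 ((inv_le_one₀ (zero_lt_iff.2
      ((Valuation.ne_zero_iff _).2 (by simpa using ha)))).1 h2)
  have htr : Transcendental K t := by
    refine transcendental_of_not_const fun a ha => ?_
    subst ha
    rw [hc1 a (by simpa using ht)] at htm
    exact lt_irrefl _ htm
  haveI := hF.finiteDimensional htr
  refine Set.not_infinite.1 fun hinf => ?_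
  obtain ⟨s, hs, hcard⟩ := hinf.exists_subset_card_eq (Module.finrank K⟮t⟯ F + 1)
  choose x hxO hxv hxt using fun γ : s => hs γ.2
  have hpoly : ∀ q : K[X], aeval t q ∈ O := by
    intro q
    rw [aeval_eq_sum_range]
    refine sum_mem fun k _ => ?_
    rw [Algebra.smul_def]
    exact mul_mem (hK _) (pow_mem ((O.valuation_le_one_iff _).1 htm.le) _)
  have hstep : ∀ p : s → K[X], ∑ j, aeval t (p j) * x j = 0 → ∀ j, (p j).coeff 0 = 0 := by
    intro p hp i
    by_contra hi
    set T := Finset.univ.filter fun j => (p j).coeff 0 ≠ 0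
    obtain ⟨j₀, hj₀, hmax⟩ := T.exists_max_image (fun j : s => (j : _))
      ⟨i, Finset.mem_filter.2 ⟨Finset.mem_univ _, hi⟩⟩
    have heq : ∑ j ∈ T, algebraMap K F ((p j).coeff 0) * x j =
        -(t * ∑ j, aeval t (p j).divX * x j) := by
      have hT' : ∑ j ∈ T, algebraMap K F ((p j).coeff 0) * x j =
          ∑ j, algebraMap K F ((p j).coeff 0) * x j := by
        refine Finset.sum_subset (Finset.subset_univ T) fun j _ hj => ?_
        have h0 : (p j).coeff 0 = 0 := by
          by_contra h; exact hj (Finset.mem_filter.2 ⟨Finset.mem_univ _, h⟩)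
        simp [h0]
      rw [hT', Finset.mul_sum,
        ← add_eq_zero_iff_eq_neg, ← Finset.sum_add_distrib, ← hp]
      refine Finset.sum_congr rfl fun j _ => ?_
      conv_rhs => rw [← (p j).X_mul_divX_add, map_add, map_mul, aeval_X, aeval_C]
      ring
    have hval : ∀ j ∈ T, O.valuation (algebraMap K F ((p j).coeff 0) * x j) = (j : _) :=
      fun j hj => by rw [map_mul, hc1 _ (Finset.mem_filter.1 hj).2, one_mul, hxv]
    have h1 := O.valuation.map_sum_eq_of_lt hj₀
      (f := fun j => algebraMap K F ((p j).coeff 0) * x j) fun j hj => by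
        rw [Finset.mem_sdiff, Finset.mem_singleton] at hj
        rw [hval j hj.1, hval j₀ hj₀]
        exact lt_of_le_of_ne (hmax j hj.1) fun h => hj.2 (Subtype.ext h)
    rw [hval j₀ hj₀, heq, Valuation.map_neg, map_mul] at h1
    have h2 : O.valuation (∑ j, aeval t (p j).divX * x j) ≤ 1 :=
      (O.valuation_le_one_iff _).2 (sum_mem fun j _ => mul_mem (hpoly _) (hxO j))
    exact lt_irrefl _ (lt_of_lt_of_le (hxt j₀) (h1 ▸ mul_le_of_le_one_right' h2))
  have hli : LinearIndependent (Algebra.adjoin K ({t} : Set F)) x := by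
    rw [Fintype.linearIndependent_iff]
    intro a ha
    have hex : ∀ j, ∃ p : K[X], aeval t p = ((a j : Algebra.adjoin K ({t} : Set F)) : F) :=
      fun j => (Algebra.adjoin_singleton_eq_range_aeval K t).le (a j).2
    choose p hp using hex
    have hrel : ∑ j, aeval t (p j) * x j = 0 := by
      simp only [hp]
      simpa [Algebra.smul_def] using ha
    have hall : ∀ k : ℕ, ∀ q : s → K[X],
        ∑ j, aeval t (q j) * x j = 0 → ∀ j, (q j).coeff k = 0 := by
      intro k
      induction k with
      | zero => exact hstep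
      | succ k ih =>
        intro q hq j
        rw [← Polynomial.coeff_divX]
        refine ih (fun j => (q j).divX) ?_ j
        have h0 := hstep q hq
        have hmul : t * ∑ j, aeval t (q j).divX * x j = 0 := by
          rw [Finset.mul_sum, ← hq]
          refine Finset.sum_congr rfl fun i _ => ?_
          conv_rhs => rw [← (q i).X_mul_divX_add, h0 i, map_zero, add_zero, map_mul, aeval_X]
          ring
        exact (mul_eq_zero.1 hmul).resolve_left ht
    intro j
    apply Subtype.ext
    rw [← hp j, show p j = 0 from Polynomial.ext fun k => by simpa using hall k p hrel j]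
    simp
  open scoped algebraAdjoinAdjoin in
  have hliF : LinearIndependent K⟮t⟯ x :=
    (LinearIndependent.iff_fractionRing (Algebra.adjoin K ({t} : Set F)) K⟮t⟯).1 hli
  have := hliF.fintype_card_le_finrank
  rw [Fintype.card_coe, hcard] at this
  omega

theorem isPrincipalIdealRing_of_contains (O : ValuationSubring F)
    (hK : ∀ a : K, algebraMap K F a ∈ O) : IsPrincipalIdealRing O := by
  classical
  refine ⟨fun I => ?_⟩
  rcases eq_or_ne I ⊥ with rfl | hI
  · exact ⟨⟨0, by simp⟩⟩
  obtain ⟨y, hyI, hy⟩ := Submodule.exists_mem_ne_zero_of_ne_bot hI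
  rcases eq_or_lt_of_le (O.valuation_le_one y) with h1 | h1
  · exact ⟨⟨1, (Ideal.eq_top_of_isUnit_mem _ hyI ((O.valuation_eq_one_iff y).2 h1)).trans
      Ideal.span_singleton_one.symm⟩⟩
  set t : F := (y : F)
  have ht : t ≠ 0 := by simpa [t] using hy
  set W := {γ | ∃ c : O, c ∈ I ∧ O.valuation c = γ ∧ O.valuation t ≤ γ}
  have hW : W.Finite := by
    refine ((finite_values hF O hK ht h1).insert (O.valuation t)).subset ?_
    rintro γ ⟨c, -, rfl, hc⟩
    rcases eq_or_lt_of_le hc with h | h
    · exact Or.inl h.symm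
    · exact Or.inr ⟨c, c.2, rfl, h⟩
  obtain ⟨γ, hγ, hmax⟩ := hW.toFinset.exists_max_image id
    ⟨_, hW.mem_toFinset.2 ⟨y, hyI, rfl, le_rfl⟩⟩
  obtain ⟨b, hbI, rfl, hbt⟩ := hW.mem_toFinset.1 hγ
  refine ⟨⟨b, le_antisymm (fun c hc => ?_) ((Ideal.span_singleton_le_iff_mem _).2 hbI)⟩⟩
  rw [Ideal.mem_span_singleton']
  have hb0 : (b : F) ≠ 0 := fun h => by
    rw [h, map_zero, le_zero_iff] at hbt
    exact (Valuation.ne_zero_iff _).2 ht hbt
  have hle : O.valuation (c : F) ≤ O.valuation (b : F) := by
    by_contra hlt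
    push Not at hlt
    exact hlt.not_ge (hmax _ (hW.mem_toFinset.2 ⟨c, hc, rfl, hbt.trans hlt.le⟩))
  refine ⟨⟨(c : F) / b, (O.valuation_le_one_iff _).1 ?_⟩, Subtype.ext ?_⟩
  · rw [map_div₀]
    exact div_le_one_of_le₀ hle zero_le'
  · simp only [MulMemClass.coe_mul]
    rw [div_mul_cancel₀ _ hb0]

/-- A proper valuation ring containing the constants is a place. -/
def toPlace (O : ValuationSubring F) (hK : ∀ a : K, algebraMap K F a ∈ O) (hne : O ≠ ⊤) :
    Place K F :=
  ⟨O, hK, hne, isPrincipalIdealRing_of_contains hF O hK⟩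

@[simp]
theorem toPlace_toValuationSubring (O : ValuationSubring F)
    (hK : ∀ a : K, algebraMap K F a ∈ O) (hne : O ≠ ⊤) :
    (toPlace hF O hK hne).toValuationSubring = O := rfl

theorem exists_ord_neg {g : F} (hg : Transcendental K g) :
    ∃ v : Place K F, v.ord g < 0 := by
  have hg0 : g ≠ 0 := fun h => hg (h ▸ isAlgebraic_zero)
  set S := Algebra.adjoin K ({g⁻¹} : Set F)
  let i : S.toSubring := ⟨g⁻¹, Algebra.subset_adjoin rfl⟩
  have hI : Ideal.span ({i} : Set S.toSubring) ≠ ⊤ := by
    rw [Ne, Ideal.span_singleton_eq_top, isUnit_iff_exists_inv]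
    rintro ⟨⟨b, hb⟩, hib⟩
    have hib' : g⁻¹ * b = 1 := congrArg Subtype.val hib
    have hbg : b = g := by
      field_simp at hib'
      exact hib'
    subst hbg
    obtain ⟨q, hq⟩ := (Algebra.adjoin_singleton_eq_range_aeval K b⁻¹).le hb
    have hgi : Transcendental K b⁻¹ := fun h => hg (by simpa using h.inv)
    have h1 : aeval b⁻¹ (q * X - 1) = 0 := by
      rw [map_sub, map_mul, aeval_X, map_one]
      show (aeval b⁻¹).toRingHom q * b⁻¹ - 1 = 0
      rw [show (aeval b⁻¹).toRingHom q = b from hq, mul_inv_cancel₀ hg0, sub_self]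
    have h2 : q * X - 1 = 0 := transcendental_iff_injective.1 hgi (by simpa using h1)
    simpa using congrArg (fun r : K[X] => r.coeff 0) h2
  obtain ⟨O, hO, hsub⟩ := Ideal.image_subset_nonunits_valuationSubring _ hI
  have hK : ∀ a : K, algebraMap K F a ∈ O := fun a => hO (S.algebraMap_mem a)
  have hnu : O.valuation g⁻¹ < 1 :=
    O.mem_nonunits_iff.1 (hsub ⟨i, Ideal.subset_span rfl, rfl⟩)
  have hgO : g ∉ O := by
    rw [← O.valuation_le_one_iff, not_le]
    rw [map_inv₀] at hnu
    exact (inv_lt_one₀ (zero_lt_iff.2 ((Valuation.ne_zero_iff _).2 hg0))).1 hnu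
  refine ⟨toPlace hF O hK fun h => hgO (h ▸ ValuationSubring.mem_top g), ?_⟩
  by_contra h
  exact hgO ((mem_place_iff _).2 (not_lt.1 h))

end ValuationRing

theorem mem_span_of_isConst [IsAlgClosed K] {f : F} (h : ∀ v : Place K F, AtLeast v 0 f)
    (hpole : ∀ g : F, Transcendental K g → ∃ v : Place K F, v.ord g < 0) :
    f ∈ Submodule.span K ({1} : Set F) := by
  by_cases hc : ∃ a : K, f = algebraMap K F a
  · obtain ⟨a, rfl⟩ := hc
    rw [Submodule.mem_span_singleton]
    exact ⟨a, by rw [Algebra.smul_def, mul_one]⟩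
  · push Not at hc
    obtain ⟨v, hv⟩ := hpole f (transcendental_of_not_const hc)
    rcases h v with h | h
    · simp [h] at hv
    · omega

/-! ### Counting zeros -/

section Count

variable [IsAlgClosed K] (hF : IsFunctionField K F)

include hF

theorem sum_ord_le_finrank {x : F} (hx : Transcendental K x) (S : Finset (Place K F))
    (hS : ∀ v ∈ S, 0 < v.ord x) :
    ∑ v ∈ S, v.ord x ≤ Module.finrank K⟮x⟯ F := by
  classical
  haveI := hF.finiteDimensional hx
  have hx0 : x ≠ 0 := fun h => hx (h ▸ isAlgebraic_zero)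
  set e : Place K F → ℕ := fun v => (v.ord x).toNat with he
  have hev : ∀ v ∈ S, (e v : ℤ) = v.ord x := fun v hv => Int.toNat_of_nonneg (hS v hv).le
  set N : ℕ := ∑ v ∈ S, e v with hN
  have heN : ∀ v ∈ S, e v ≤ N := fun v hv =>
    Finset.single_le_sum (f := e) (fun _ _ => Nat.zero_le _) hv
  choose t ht using fun v : Place K F => exists_uniformizer v
  choose u hu using fun j : Σ v : S, Fin (e v.1) =>
    exists_approx S (fun w => if w = j.1.1 then t w ^ (j.2 : ℕ) else 0) N
  have hother : ∀ j : Σ v : S, Fin (e v.1), ∀ w ∈ S, w ≠ j.1.1 → AtLeast w N (u j) := by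
    intro j w hw hne
    have := hu j w hw
    rwa [if_neg hne, sub_zero] at this
  have hself : ∀ j : Σ v : S, Fin (e v.1),
      u j ≠ 0 ∧ (j.1.1).ord (u j) = ((j.2 : ℕ) : ℤ) := by
    rintro ⟨⟨v, hv⟩, i⟩
    have h := hu ⟨⟨v, hv⟩, i⟩ v hv
    rw [if_pos rfl] at h
    have hti : v.ord (t v ^ (i : ℕ)) = ((i : ℕ) : ℤ) := by rw [place_ord_pow, ht, mul_one]
    have ht0 : t v ≠ 0 := fun h => by simpa [h] using ht v
    have hlt : ((i : ℕ) : ℤ) + 1 ≤ N := by
      have h1 : (i : ℕ) < e v := i.2
      have h2 := heN v hv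
      omega
    have := ord_add_eq_left (v := v) (g := u ⟨⟨v, hv⟩, i⟩ - t v ^ (i : ℕ))
      (pow_ne_zero (i : ℕ) ht0) (by rw [hti]; exact h.mono hlt)
    rw [add_sub_cancel] at this
    exact ⟨this.1, this.2.trans hti⟩
  have hnonneg : ∀ j, ∀ w ∈ S, AtLeast w 0 (u j) := by
    intro j w hw
    rcases eq_or_ne w j.1.1 with rfl | hne
    · exact Or.inr ((hself j).2.symm ▸ Int.natCast_nonneg _)
    · exact (hother j w hw hne).mono (Int.natCast_nonneg _)
  -- the constant coefficients of a relation vanish
  have hstep : ∀ p : (Σ v : S, Fin (e v.1)) → K[X],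
      ∑ j, aeval x (p j) * u j = 0 → ∀ j, (p j).coeff 0 = 0 := by
    intro p hp
    have hsum : ∀ w ∈ S, AtLeast w (w.ord x) (∑ j, algebraMap K F ((p j).coeff 0) * u j) := by
      intro w hw
      have heq : ∑ j, algebraMap K F ((p j).coeff 0) * u j =
          -(x * ∑ j, aeval x (p j).divX * u j) := by
        rw [Finset.mul_sum, ← add_eq_zero_iff_eq_neg, ← Finset.sum_add_distrib, ← hp]
        refine Finset.sum_congr rfl fun j _ => ?_
        conv_rhs => rw [← (p j).X_mul_divX_add, map_add, map_mul, aeval_X, aeval_C]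
        ring
      rw [heq]
      refine (((atLeast_ord x).mul (atLeast_sum fun j _ => ?_)).neg).mono (add_zero _).ge
      have hmem : aeval x (p j).divX ∈ w.toValuationSubring := by
        rw [aeval_eq_sum_range]
        refine sum_mem fun k _ => ?_
        rw [Algebra.smul_def]
        exact mul_mem (w.algebraMap_mem' _) (pow_mem (mem_place_of_ord_nonneg w (hS w hw).le) _)
      simpa using (atLeast_zero_iff_mem.2 hmem).mul (hnonneg j w hw)
    rintro ⟨⟨v, hv⟩, i⟩
    by_contra hne
    set T := Finset.univ.filter fun k : Fin (e v) => (p ⟨⟨v, hv⟩, k⟩).coeff 0 ≠ 0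
    have hT : T.Nonempty := ⟨i, Finset.mem_filter.2 ⟨Finset.mem_univ _, hne⟩⟩
    set k₀ := T.min' hT
    have hk₀ : (p ⟨⟨v, hv⟩, k₀⟩).coeff 0 ≠ 0 := (Finset.mem_filter.1 (T.min'_mem hT)).2
    set j₀ : Σ v : S, Fin (e v.1) := ⟨⟨v, hv⟩, k₀⟩
    have hmain : algebraMap K F ((p j₀).coeff 0) * u j₀ ≠ 0 :=
      mul_ne_zero (by simpa using hk₀) (hself j₀).1
    have hord : v.ord (algebraMap K F ((p j₀).coeff 0) * u j₀) = ((k₀ : ℕ) : ℤ) := by
      rw [v.ord_mul (by simpa using hk₀) (hself j₀).1, place_ord_algebraMap, zero_add]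
      exact (hself j₀).2
    have hk₀lt : ((k₀ : ℕ) : ℤ) + 1 ≤ N := by
      have h1 : (k₀ : ℕ) < e v := k₀.2
      have h2 := heN v hv
      omega
    have hrest : AtLeast v (((k₀ : ℕ) : ℤ) + 1)
        (∑ j ∈ Finset.univ.erase j₀, algebraMap K F ((p j).coeff 0) * u j) := by
      refine atLeast_sum fun j hj => ?_
      rcases eq_or_ne v j.1.1 with hvj | hvj
      · obtain ⟨⟨w, hw⟩, k⟩ := j
        subst hvj
        rcases eq_or_ne ((p ⟨⟨v, hw⟩, k⟩).coeff 0) 0 with h0 | h0
        · simp [h0, atLeast_zero]
        · have hle : k₀ ≤ k := T.min'_le k (Finset.mem_filter.2 ⟨Finset.mem_univ _, h0⟩)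
          have hne' : k₀ ≠ k := fun h => (Finset.mem_erase.1 hj).1 (by subst h; rfl)
          have hlt : (k₀ : ℕ) < (k : ℕ) := Fin.lt_def.1 (lt_of_le_of_ne hle hne')
          refine AtLeast.smul (Or.inr ?_) _
          show _ ≤ Place.ord v (u ⟨⟨v, hw⟩, k⟩)
          rw [show v.ord (u ⟨⟨v, hw⟩, k⟩) = ((k : ℕ) : ℤ) from (hself ⟨⟨v, hw⟩, k⟩).2]
          omega
      · exact ((hother j v hv hvj).mono hk₀lt).smul _
    have htot := ord_add_eq_left hmain (hord.symm ▸ hrest)
    rw [Finset.add_sum_erase Finset.univ
      (fun j => algebraMap K F ((p j).coeff 0) * u j) (Finset.mem_univ j₀)] at htot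
    have := (atLeast_iff htot.1).1 (hsum v hv)
    rw [htot.2, hord, ← hev v hv] at this
    have := k₀.2
    omega
  have hli : LinearIndependent (Algebra.adjoin K ({x} : Set F)) u := by
    rw [Fintype.linearIndependent_iff]
    intro a ha
    have hex : ∀ j, ∃ p : K[X], aeval x p = ((a j : Algebra.adjoin K ({x} : Set F)) : F) :=
      fun j => (Algebra.adjoin_singleton_eq_range_aeval K x).le (a j).2
    choose p hp using hex
    have hrel : ∑ j, aeval x (p j) * u j = 0 := by
      simp only [hp]
      simpa [Algebra.smul_def] using ha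
    have hall : ∀ k : ℕ, ∀ q : (Σ v : S, Fin (e v.1)) → K[X],
        ∑ j, aeval x (q j) * u j = 0 → ∀ j, (q j).coeff k = 0 := by
      intro k
      induction k with
      | zero => exact hstep
      | succ k ih =>
        intro q hq j
        rw [← Polynomial.coeff_divX]
        refine ih (fun j => (q j).divX) ?_ j
        have h0 := hstep q hq
        have hmul : x * ∑ j, aeval x (q j).divX * u j = 0 := by
          rw [Finset.mul_sum, ← hq]
          refine Finset.sum_congr rfl fun i _ => ?_
          conv_rhs => rw [← (q i).X_mul_divX_add, h0 i, map_zero, add_zero, map_mul, aeval_X]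
          ring
        exact (mul_eq_zero.1 hmul).resolve_left hx0
    intro j
    apply Subtype.ext
    rw [← hp j, show p j = 0 from Polynomial.ext fun k => by simpa using hall k p hrel j]
    simp
  open scoped algebraAdjoinAdjoin in
  have hliF : LinearIndependent K⟮x⟯ u :=
    (LinearIndependent.iff_fractionRing (Algebra.adjoin K ({x} : Set F)) K⟮x⟯).1 hli
  have hcard : N ≤ Module.finrank K⟮x⟯ F := by
    refine le_of_eq_of_le ?_ hliF.fintype_card_le_finrank
    rw [Fintype.card_sigma, hN, ← Finset.sum_coe_sort]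
    exact Finset.sum_congr rfl fun v _ => (Fintype.card_fin _).symm
  calc ∑ v ∈ S, v.ord x = (N : ℤ) := by
        rw [hN, Nat.cast_sum]; exact Finset.sum_congr rfl fun v hv => (hev v hv).symm
    _ ≤ _ := by exact_mod_cast hcard

theorem finite_zeros (f : F) : {v : Place K F | 0 < v.ord f}.Finite := by
  by_cases hf : Transcendental K f
  · refine Set.not_infinite.1 fun h => ?_
    obtain ⟨s, hs, hcard⟩ := h.exists_subset_card_eq (Module.finrank K⟮f⟯ F + 1)
    have := sum_ord_le_finrank hF hf s (fun v hv => hs hv)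
    have h1 : (s.card : ℤ) ≤ ∑ v ∈ s, v.ord f := by
      rw [Finset.card_eq_sum_ones, Nat.cast_sum]
      exact Finset.sum_le_sum fun v hv => by
        have h0 : 0 < v.ord f := hs hv
        push_cast; omega
    omega
  · refine Set.finite_empty.subset fun v (hv : 0 < v.ord f) => ?_
    exact hf (transcendental_of_ord_ne_zero v hv.ne')

theorem finite_support (f : F) : {v : Place K F | v.ord f ≠ 0}.Finite := by
  refine ((finite_zeros hF f).union (finite_zeros hF f⁻¹)).subset fun v hv => ?_
  rcases lt_or_gt_of_ne (α := ℤ) hv with h | h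
  · exact Or.inr (by rw [Set.mem_ofPred_eq, v.ord_inv]; omega)
  · exact Or.inl h

/-- The divisor of a function (zero for `f = 0`). -/
def divOf (f : F) : Divisor K F :=
  Finsupp.ofSupportFinite (fun v => v.ord f) (finite_support hF f)

@[simp]
theorem divOf_apply (f : F) (v : Place K F) : divOf hF f v = v.ord f := rfl

theorem degree_eq_sum (D : Divisor K F) : Divisor.degree D = D.sum fun _ n => n := by
  induction D using Finsupp.induction with
  | zero => simp
  | single_add v n D hv _ ih =>
    rw [map_add, Divisor.degree_single, hF.deg_eq_one, ih,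
      Finsupp.sum_add_index' (fun _ => rfl) (fun _ _ _ => rfl), Finsupp.sum_single_index rfl]
    simp

theorem degree_eq_finset_sum (D : Divisor K F) {S : Finset (Place K F)} (h : D.support ⊆ S) :
    Divisor.degree D = ∑ v ∈ S, D v := by
  rw [degree_eq_sum hF, Finsupp.sum]
  exact Finset.sum_subset h fun v _ hv => Finsupp.notMem_support_iff.1 hv

theorem degree_mono {D D' : Divisor K F} (h : D ≤ D') :
    Divisor.degree D ≤ Divisor.degree D' := by
  classical
  rw [degree_eq_finset_sum hF D (Finset.subset_union_left (s₂ := D'.support)),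
    degree_eq_finset_sum hF D' Finset.subset_union_right]
  exact Finset.sum_le_sum fun v _ => Finsupp.le_def.1 h v

theorem degree_nonneg {D : Divisor K F} (h : 0 ≤ D) : 0 ≤ Divisor.degree D := by
  simpa using degree_mono hF h

/-! ### Finiteness of Riemann-Roch spaces -/

theorem codim_single (D : Divisor K F) (v : Place K F) {g : F}
    (hg : g ∈ riemannRochSpace (D + Finsupp.single v 1)) (hg' : g ∉ riemannRochSpace D) :
    riemannRochSpace (D + Finsupp.single v 1) ≤
      riemannRochSpace D ⊔ Submodule.span K {g} := by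
  classical
  rw [mem_riemannRochSpace] at hg hg'
  have hother : ∀ (f : F), (∀ w, AtLeast w (-((D + Finsupp.single v 1 : Divisor K F) w)) f) →
      ∀ w, w ≠ v → AtLeast w (-D w) f := fun f hf w hw => by
    simpa [Finsupp.single_eq_of_ne hw] using hf w
  have hgv : g ≠ 0 ∧ v.ord g = -D v - 1 := by
    have hnv : ¬ AtLeast v (-D v) g := fun hgv => hg' fun w => by
      rcases eq_or_ne w v with rfl | hw
      · exact hgv
      · exact hother g hg w hw
    have h := hg v
    simp only [Finsupp.add_apply, Finsupp.single_eq_same] at h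
    rw [AtLeast, not_or] at hnv
    refine ⟨hnv.1, ?_⟩
    rw [atLeast_iff hnv.1] at h
    omega
  intro f hf
  rw [mem_riemannRochSpace] at hf
  have hmem : f / g ∈ v.toValuationSubring := by
    rcases eq_or_ne f 0 with rfl | hf0
    · simp
    refine mem_place_of_ord_nonneg v ?_
    rw [div_eq_mul_inv, v.ord_mul hf0 (inv_ne_zero hgv.1), v.ord_inv, hgv.2]
    have := hf v
    simp only [Finsupp.add_apply, Finsupp.single_eq_same, atLeast_iff hf0] at this
    omega
  obtain ⟨a, ha⟩ := exists_residue hF.isCurve v hmem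
  have hv : AtLeast v (-D v) (f - algebraMap K F a * g) := by
    have h1 : AtLeast v 1 (f / g - algebraMap K F a) :=
      ha.imp (fun h => sub_eq_zero.2 h) fun h => by omega
    have h2 := h1.mul (atLeast_ord (v := v) g)
    rw [sub_mul, div_mul_cancel₀ _ hgv.1, hgv.2] at h2
    exact h2.mono (by omega)
  rw [Submodule.mem_sup]
  refine ⟨f - algebraMap K F a * g, ?_, algebraMap K F a * g,
    Submodule.mem_span_singleton.2 ⟨a, Algebra.smul_def a g⟩, by ring⟩
  rw [mem_riemannRochSpace]
  intro w
  rcases eq_or_ne w v with rfl | hw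
  · exact hv
  · exact hother _ (fun u => (hf u).sub ((hg u).smul a)) w hw

theorem finrank_succ (D : Divisor K F) (v : Place K F) [Module.Finite K (riemannRochSpace D)] :
    Module.Finite K (riemannRochSpace (D + Finsupp.single v 1)) ∧
      Module.finrank K (riemannRochSpace (D + Finsupp.single v 1)) ≤
        Module.finrank K (riemannRochSpace D) + 1 := by
  classical
  by_cases hg : ∃ g ∈ riemannRochSpace (D + Finsupp.single v 1), g ∉ riemannRochSpace D
  · obtain ⟨g, hg, hg'⟩ := hg
    have hle := codim_single hF D v hg hg'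
    haveI : Module.Finite K (Submodule.span K ({g} : Set F)) :=
      Module.Finite.span_of_finite K (Set.finite_singleton g)
    refine ⟨Submodule.finiteDimensional_of_le hle, (Submodule.finrank_mono hle).trans ?_⟩
    refine (Submodule.finrank_add_le_finrank_add_finrank _ _).trans (add_le_add le_rfl ?_)
    exact (finrank_span_le_card ({g} : Set F)).trans (by simp)
  · push Not at hg
    exact ⟨Submodule.finiteDimensional_of_le hg,
      (Submodule.finrank_mono hg).trans (Nat.le_succ _)⟩

theorem finite_of_le {D D' : Divisor K F} (hle : D ≤ D') [Module.Finite K (riemannRochSpace D)] :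
    Module.Finite K (riemannRochSpace D') ∧
      (Module.finrank K (riemannRochSpace D') : ℤ) - Divisor.degree D' ≤
        (Module.finrank K (riemannRochSpace D) : ℤ) - Divisor.degree D := by
  classical
  have key : ∀ n : ℕ, ∀ D' : Divisor K F, D ≤ D' → Divisor.degree (D' - D) = n →
      Module.Finite K (riemannRochSpace D') ∧
        (Module.finrank K (riemannRochSpace D') : ℤ) - Divisor.degree D' ≤
          (Module.finrank K (riemannRochSpace D) : ℤ) - Divisor.degree D := by
    intro n
    induction n with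
    | zero =>
      intro D' hle hdeg
      have : D' = D := by
        ext w
        rw [degree_eq_sum hF, Finsupp.sum, Nat.cast_zero, Finset.sum_eq_zero_iff_of_nonneg
          (fun u _ => by simpa using Finsupp.le_def.1 hle u)] at hdeg
        by_contra hne
        have h := hdeg w (by simpa [sub_eq_zero] using hne)
        exact hne (sub_eq_zero.1 (by simpa using h))
      subst this
      exact ⟨inferInstance, le_rfl⟩
    | succ n ih =>
      intro D' hle hdeg
      obtain ⟨v, hv⟩ : ∃ v, D v < D' v := by
        by_contra hno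
        push Not at hno
        have : D' = D := Finsupp.ext fun w => le_antisymm (hno w) (Finsupp.le_def.1 hle w)
        subst this
        rw [sub_self, map_zero] at hdeg
        omega
      set D₁ := D' - Finsupp.single v 1 with hD₁
      have hD' : D' = D₁ + Finsupp.single v 1 := (sub_add_cancel _ _).symm
      have hle₁ : D ≤ D₁ := Finsupp.le_def.2 fun w => by
        rcases eq_or_ne w v with rfl | hw
        · simp [hD₁]; omega
        · simpa [hD₁, Finsupp.single_eq_of_ne hw] using Finsupp.le_def.1 hle w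
      have hd₁ : Divisor.degree D₁ = Divisor.degree D' - 1 := by
        rw [hD₁, map_sub, Divisor.degree_single, hF.deg_eq_one]; simp
      have hdeg₁ : Divisor.degree (D₁ - D) = n := by
        rw [map_sub] at hdeg ⊢
        push_cast at hdeg
        omega
      obtain ⟨hfin, hineq⟩ := ih D₁ hle₁ hdeg₁
      haveI := hfin
      obtain ⟨h1, h2⟩ := finrank_succ hF D₁ v
      rw [← hD'] at h1 h2
      exact ⟨h1, by omega⟩
  exact key _ D' hle (Int.toNat_of_nonneg (degree_nonneg hF (sub_nonneg.2 hle))).symm

end Count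

end FA.Curve
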