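import Fermat.Agent.Curve.Along
import Fermat.Agent.Curve.Value

/-!
# Trace and characteristic polynomial at a place

For a finite map of function fields and an element regular above a place `v`, the reduced
characteristic polynomial has as roots exactly the values above `v` (norm formula plus
interpolation at constants).
-/

set_option autoImplicit false
set_option linter.style.haveILetI false

noncomputable section

namespace FA.Curve

open AlgebraicCurve FA.ModField Polynomial

variable {K F F' : Type*} [Field K] [Field F] [Field F'] [Algebra K F] [Algebra K F']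

theorem HasValue.finsetSum {ι : Type*} {P : Place K F} {s : Finset ι} {f : ι → F} {c : ι → K}
    (h : ∀ i ∈ s, HasValue P (f i) (c i)) : HasValue P (∑ i ∈ s, f i) (∑ i ∈ s, c i) := by
  classical
  induction s using Finset.induction with
  | empty => simpa using hasValue_algebraMap P (0 : K)
  | @insert a s ha ih =>
    rw [Finset.sum_insert ha, Finset.sum_insert ha]
    exact (h a (Finset.mem_insert_self a s)).add
      (ih fun i hi => h i (Finset.mem_insert_of_mem hi))

theorem HasValue.mul_algebraMap {P : Place K F} {f : F} {c : K} (h : HasValue P f c) (a : K) :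
    HasValue P (f * algebraMap K F a) (c * a) := by
  rw [mul_comm, mul_comm c]; exact h.smul a

theorem HasValue.mul {P : Place K F} {f g : F} {c d : K} (h : HasValue P f c)
    (h' : HasValue P g d) : HasValue P (f * g) (c * d) := by
  rw [HasValue, map_mul, show f * g - algebraMap K F c * algebraMap K F d =
    (f - algebraMap K F c) * g + algebraMap K F c * (g - algebraMap K F d) by ring]
  exact ((AtLeast.mul h h'.atLeast).mono le_rfl).add (AtLeast.smul h' c)

theorem HasValue.pow {P : Place K F} {f : F} {c : K} (h : HasValue P f c) (n : ℕ) :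
    HasValue P (f ^ n) (c ^ n) := by
  induction n with
  | zero => simpa using hasValue_algebraMap P (1 : K)
  | succ n ih => rw [pow_succ, pow_succ]; exact ih.mul h

theorem HasValue.aeval {P : Place K F} {f : F} {c : K} (h : HasValue P f c) (q : K[X]) :
    HasValue P (aeval f q) (q.eval c) := by
  rw [aeval_eq_sum_range, eval_eq_sum_range]
  refine HasValue.finsetSum fun i _ => ?_
  rw [Algebra.smul_def]
  exact (h.pow i).smul _

theorem HasValue.ord_eq_zero {P : Place K F} {f : F} {c : K} (h : HasValue P f c) (hc : c ≠ 0) :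
    f ≠ 0 ∧ P.ord f = 0 := by
  have hne : algebraMap K F c ≠ 0 := by simpa using hc
  have := ord_add_eq_left (v := P) hne (g := f - algebraMap K F c)
    (by rw [place_ord_algebraMap]; exact h)
  rwa [add_sub_cancel, place_ord_algebraMap] at this

theorem hasValue_zero_of_pos {P : Place K F} {f : F} (h : 0 < P.ord f) : HasValue P f 0 :=
  hasValue_zero_iff.2 (Or.inr (by omega))

/-- A polynomial over `F` with integral values at all nonzero constants has integral
coefficients. -/
theorem atLeast_coeff_of_eval [Infinite K] (v : Place K F) (Q : F[X])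
    (h : ∀ c : K, c ≠ 0 → AtLeast v 0 (Q.eval (algebraMap K F c))) (l : ℕ) :
    AtLeast v 0 (Q.coeff l) := by
  classical
  obtain ⟨s, hs, hcard⟩ :=
    (Set.finite_singleton (0 : K)).infinite_compl.exists_subset_card_eq (Q.natDegree + 1)
  set Qc : F[X] := ∑ i ∈ s, Polynomial.C (Q.eval (algebraMap K F i)) *
    (Lagrange.basis s id i).map (algebraMap K F) with hQc
  have hinj : Set.InjOn (id : K → K) s := Function.injective_id.injOn
  have hdeg : Qc.degree < s.card := by
    rw [hcard]
    refine lt_of_le_of_lt (Polynomial.degree_le_natDegree) ?_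
    refine WithBot.coe_lt_coe.2 (Nat.lt_succ_of_le ?_)
    refine natDegree_sum_le_of_forall_le _ _ fun i hi => ?_
    refine (natDegree_C_mul_le _ _).trans ?_
    rw [natDegree_map, Lagrange.natDegree_basis hinj hi, hcard]
    simp
  have heq : Q = Qc := by
    refine Polynomial.eq_of_degrees_lt_of_eval_index_eq (v := algebraMap K F) (s := s)
      (algebraMap K F).injective.injOn ?_ hdeg fun j hj => ?_
    · rw [hcard]
      exact lt_of_le_of_lt Polynomial.degree_le_natDegree
        (WithBot.coe_lt_coe.2 (Nat.lt_succ_self _))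
    · simp only [hQc, eval_finsetSum, eval_mul, eval_C, eval_map, eval₂_at_apply]
      rw [Finset.sum_eq_single j (fun i _ hij => ?_) (fun h => absurd hj h),
        show (Lagrange.basis s id j).eval j = 1 from Lagrange.eval_basis_self hinj hj,
        map_one, mul_one]
      rw [show (Lagrange.basis s id i).eval j = 0 from
        Lagrange.eval_basis_of_ne (v := id) hij hj, map_zero, mul_zero]
  rw [heq, hQc, finsetSum_coeff]
  refine atLeast_sum fun i hi => ?_
  rw [coeff_C_mul, coeff_map]
  simpa using (h i fun h0 => hs hi (by simpa using h0)).mul (atLeast_algebraMap _)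

variable [Algebra F F'] [IsScalarTower K F F'] [IsAlgClosed K]
  (hF : IsFunctionField K F) (hF' : IsFunctionField K F')
  [Algebra.IsIntegral F F'] [HasPrincipalDivisors K F']

omit [Algebra F F'] [IsScalarTower K F F'] [Algebra.IsIntegral F F'] [IsAlgClosed K]
  [HasPrincipalDivisors K F'] in
/-- The norm of `c - g` is the characteristic polynomial at `c`. -/
theorem eval_charpoly_eq_norm [Algebra F F'] {ι : Type*} [Fintype ι] [DecidableEq ι]
    (b : Module.Basis ι F F') (g : F') (c : F) :
    (Algebra.leftMulMatrix b g).charpoly.eval c = Algebra.norm F (algebraMap F F' c - g) := by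
  rw [Algebra.norm_eq_matrix_det b, map_sub, AlgHom.commutes, Matrix.algebraMap_eq_diagonal,
    Matrix.eval_charpoly]
  rfl

include hF hF'

theorem fiber_nonempty (v : Place K F) : (v.fiber F').Nonempty := by
  haveI := module_finite (F' := F') hF hF'
  by_contra h
  have := sum_ramificationIndex hF hF' (F' := F') v
  rw [Finset.not_nonempty_iff_eq_empty.1 h, Finset.sum_empty] at this
  have hpos : 0 < Module.finrank F F' := Module.finrank_pos
  omega

/-- Values of a regular element are read off from its reduced characteristic polynomial. -/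
theorem exists_residue_charpoly (v : Place K F) (g : F')
    (hg : ∀ w ∈ v.fiber F', AtLeast w 0 g) :
    ∃ p : K[X], p.Monic ∧
      (∀ c : K, p.eval c = 0 ↔ ∃ w ∈ v.fiber F', HasValue w g c) ∧
      HasValue v (Algebra.trace F F' g) (-p.nextCoeff) := by
  classical
  haveI := module_finite (F' := F') hF hF'
  let b := Module.finBasis F F'
  haveI : Nonempty (Fin (Module.finrank F F')) := ⟨⟨0, Module.finrank_pos⟩⟩
  set P := (Algebra.leftMulMatrix b g).charpoly with hP
  have heval : ∀ c : K, P.eval (algebraMap K F c) =
      Algebra.norm F (algebraMap K F' c - g) := fun c => by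
    rw [hP, eval_charpoly_eq_norm, ← IsScalarTower.algebraMap_apply]
  have hsum : ∀ c : K, algebraMap K F' c - g ≠ 0 →
      v.ord (P.eval (algebraMap K F c)) = ∑ w ∈ v.fiber F', w.ord (algebraMap K F' c - g) :=
    fun c hc => by rw [heval, sum_fiber_ord hF hF' v hc]
  have hint : ∀ c : K, AtLeast v 0 (P.eval (algebraMap K F c)) := by
    intro c
    rcases eq_or_ne (algebraMap K F' c - g) 0 with h | h
    · rw [heval, h, Algebra.norm_zero]; exact atLeast_zero
    · refine Or.inr ?_
      rw [hsum c h]
      exact Finset.sum_nonneg fun w hw =>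
        (atLeast_iff h).1 ((atLeast_algebraMap c).sub (hg w hw))
  choose r hr using fun l => exists_hasValue hF (atLeast_coeff_of_eval v P (fun c _ => hint c) l)
  set d := P.natDegree with hd
  set p : K[X] := ∑ l ∈ Finset.range (d + 1), monomial l (r l) with hp
  have hcoeff : ∀ l, l ≤ d → p.coeff l = r l := fun l hl => by
    rw [hp, finsetSum_coeff, Finset.sum_eq_single l
      (fun i _ hi => coeff_monomial_of_ne _ hi.symm)
      (fun h => absurd (Finset.mem_range.2 (Nat.lt_succ_of_le hl)) h), coeff_monomial_same]
  have hrd : r d = 1 := by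
    have h1 := hr d
    rw [(Matrix.charpoly_monic _).coeff_natDegree] at h1
    exact h1.unique (by simpa using hasValue_algebraMap v (1 : K))
  have hdeg : p.natDegree = d := by
    refine natDegree_eq_of_le_of_coeff_ne_zero ?_ (by rw [hcoeff d le_rfl, hrd]; exact one_ne_zero)
    exact natDegree_sum_le_of_forall_le _ _ fun l hl =>
      (natDegree_monomial_le _).trans (Nat.lt_succ_iff.1 (Finset.mem_range.1 hl))
  have hmonic : p.Monic := by rw [Monic, leadingCoeff, hdeg, hcoeff d le_rfl, hrd]
  have hval : ∀ c : K, HasValue v (P.eval (algebraMap K F c)) (p.eval c) := by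
    intro c
    rw [eval_eq_sum_range, eval_eq_sum_range, hdeg, ← hd]
    refine HasValue.finsetSum fun l hl => ?_
    rw [hcoeff l (Nat.lt_succ_iff.1 (Finset.mem_range.1 hl)), ← map_pow]
    exact (hr l).mul_algebraMap _
  refine ⟨p, hmonic, fun c => ?_, ?_⟩
  · rcases eq_or_ne (algebraMap K F' c - g) 0 with h | h
    · have h1 := hval c
      rw [heval, h, Algebra.norm_zero] at h1
      have h2 : p.eval c = 0 := h1.unique (by simpa using hasValue_algebraMap v (0 : K))
      obtain ⟨w, hw⟩ := fiber_nonempty hF hF' v
      exact iff_of_true h2 ⟨w, hw, sub_eq_zero.1 h ▸ hasValue_algebraMap w c⟩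
    · have hnn : ∀ w ∈ v.fiber F', 0 ≤ w.ord (algebraMap K F' c - g) := fun w hw =>
        (atLeast_iff h).1 ((atLeast_algebraMap c).sub (hg w hw))
      have hiff : ∀ w : Place K F', HasValue w g c ↔ 0 < w.ord (algebraMap K F' c - g) := fun w => by
        rw [HasValue, atLeast_iff (sub_ne_zero.2 (sub_ne_zero.1 h).symm),
          ← place_ord_neg w (g - _), neg_sub]
        omega
      simp only [hiff]
      constructor
      · intro h0
        by_contra hno
        push Not at hno
        have h1 := hval c
        rw [h0, hasValue_zero_iff, atLeast_iff (by rw [heval]; exact Algebra.norm_ne_zero_iff.2 h),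
          hsum c h, Finset.sum_eq_zero fun w hw => le_antisymm (hno w hw) (hnn w hw)] at h1
        omega
      · rintro ⟨w, hw, hwc⟩
        refine (hval c).unique (hasValue_zero_of_pos ?_)
        rw [hsum c h]
        exact lt_of_lt_of_le hwc (Finset.single_le_sum hnn hw)
  · have hd0 : d = Module.finrank F F' := by
      rw [hd, hP, Matrix.charpoly_natDegree_eq_dim, Fintype.card_fin]
    have hdpos : 0 < d := hd0 ▸ Module.finrank_pos
    rw [Algebra.trace_eq_matrix_trace b, Matrix.trace_eq_neg_charpoly_coeff, ← hP,
      nextCoeff_of_natDegree_pos (hdeg ▸ hdpos), hdeg, hcoeff _ (Nat.sub_le d 1)]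
    simp only [Fintype.card_fin]
    simpa [hd0] using (hr (d - 1)).smul (-1)

theorem atLeast_trace {v : Place K F} {g : F'} (hg : ∀ w ∈ v.fiber F', AtLeast w 0 g) :
    AtLeast v 0 (Algebra.trace F F' g) := by
  obtain ⟨p, -, -, h⟩ := exists_residue_charpoly hF hF' v g hg
  exact h.atLeast

/-- All values zero: the trace vanishes at `v`. -/
theorem atLeast_one_trace {v : Place K F} {g : F'} (hg : ∀ w ∈ v.fiber F', AtLeast w 1 g) :
    AtLeast v 1 (Algebra.trace F F' g) := by
  obtain ⟨p, hp, hroot, h⟩ := exists_residue_charpoly hF hF' v g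
    fun w hw => (hg w hw).mono zero_le_one
  suffices h0 : p.nextCoeff = 0 by simpa [h0, hasValue_zero_iff] using h
  rw [(IsAlgClosed.splits p).nextCoeff_eq_neg_sum_roots_of_monic hp, neg_eq_zero]
  refine Multiset.sum_eq_zero fun c hc => ?_
  obtain ⟨w, hw, hwc⟩ := (hroot c).1 (mem_roots'.1 hc).2
  exact hwc.unique (hasValue_zero_iff.2 (hg w hw))

/-- Values `0` and `1` only: the trace is a positive integer at `v`. -/
theorem hasValue_trace_indicator {v : Place K F} {g : F'} {w₀ : Place K F'}
    (hw₀ : w₀ ∈ v.fiber F') (h₀ : HasValue w₀ g 1)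
    (hg : ∀ w ∈ v.fiber F', w ≠ w₀ → AtLeast w 1 g) :
    ∃ r : ℕ, 0 < r ∧ HasValue v (Algebra.trace F F' g) (r : K) := by
  classical
  obtain ⟨p, hp, hroot, h⟩ := exists_residue_charpoly hF hF' v g fun w hw => by
    rcases eq_or_ne w w₀ with rfl | hne
    · exact h₀.atLeast
    · exact (hg w hw hne).mono zero_le_one
  have hone : (1 : K) ∈ p.roots := mem_roots'.2 ⟨hp.ne_zero, (hroot 1).2 ⟨w₀, hw₀, h₀⟩⟩
  refine ⟨p.roots.count 1, Multiset.count_pos.2 hone, ?_⟩
  rw [(IsAlgClosed.splits p).nextCoeff_eq_neg_sum_roots_of_monic hp, neg_neg] at h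
  convert h using 1
  rw [Finset.sum_multiset_count]
  rw [Finset.sum_eq_single (1 : K)]
  · simp
  · intro c hc hc1
    obtain ⟨w, hw, hwc⟩ := (hroot c).1 (mem_roots'.1 (Multiset.mem_toFinset.1 hc)).2
    rcases eq_or_ne w w₀ with rfl | hne
    · exact absurd (hwc.unique h₀) hc1
    · rw [hwc.unique (hasValue_zero_iff.2 (hg w hw hne)), smul_zero]
  · intro h1
    exact absurd (Multiset.mem_toFinset.2 hone) h1

end FA.Curve
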