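import Fermat.Agent.Curve.Genus
import Fermat.Prelude.Def_AlgebraicCurve_Correspondence

/-!
# Finite maps of function fields: fundamental identity and norm formula

No separability hypothesis is needed.
-/

set_option autoImplicit false
set_option linter.style.haveILetI false

noncomputable section

namespace FA.Curve

open AlgebraicCurve FA.ModField Polynomial IntermediateField

section Tower

variable {K F F' : Type*} [Field K] [Field F] [Field F'] [Algebra K F] [Algebra K F']
  [Algebra F F'] [IsScalarTower K F F']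

theorem transcendental_algebraMap {x : F} (hx : Transcendental K x) :
    Transcendental K (algebraMap F F' x) := fun h =>
  hx ((isAlgebraic_algebraMap_iff (algebraMap F F').injective).1 h)

theorem module_finite (hF : IsFunctionField K F) (hF' : IsFunctionField K F') :
    Module.Finite F F' := by
  classical
  obtain ⟨x, hx, -⟩ := hF
  haveI := hF'.finiteDimensional (transcendental_algebraMap (F' := F') hx)
  set L := K⟮algebraMap F F' x⟯
  let b := Module.finBasis L F'
  have hL : ∀ c : L, (c : F') ∈ (IsScalarTower.toAlgHom K F F').fieldRange := fun c =>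
    (IntermediateField.adjoin_le_iff.2 (Set.singleton_subset_iff.2
      (AlgHom.mem_fieldRange.2 ⟨x, rfl⟩)) : L ≤ _) c.2
  refine ⟨⟨Finset.univ.image b, ?_⟩⟩
  rw [eq_top_iff]
  intro y _
  rw [← b.sum_repr y]
  refine sum_mem fun i _ => ?_
  obtain ⟨a, ha⟩ := hL (b.repr y i)
  have : b.repr y i • b i = a • b i := by
    rw [IntermediateField.smul_def, smul_eq_mul, Algebra.smul_def, ← ha]; rfl
  rw [this]
  exact Submodule.smul_mem _ a (Submodule.subset_span (by simp))

theorem finrank_adjoin_algebraMap (x : F) :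
    Module.finrank K⟮algebraMap F F' x⟯ F' =
      Module.finrank K⟮x⟯ F * Module.finrank F F' := by
  rw [Module.finrank_mul_finrank]
  let φ := IsScalarTower.toAlgHom K F F'
  have hmap : (K⟮x⟯).map φ = K⟮algebraMap F F' x⟯ := by
    rw [IntermediateField.adjoin_map, Set.image_singleton]; rfl
  let e : K⟮x⟯ ≃ₐ[K] K⟮algebraMap F F' x⟯ :=
    (K⟮x⟯.equivMap φ).trans (IntermediateField.equivOfEq hmap)
  exact (Algebra.finrank_eq_of_equiv_equiv e.toRingEquiv (RingEquiv.refl F')
    (RingHom.ext fun a => rfl)).symm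

variable [IsAlgClosed K] (hF : IsFunctionField K F) (hF' : IsFunctionField K F')
  [Algebra.IsIntegral F F'] [HasPrincipalDivisors K F']

include hF'

omit [HasPrincipalDivisors K F'] in
theorem inertiaDeg_eq_one (w : Place K F') : w.inertiaDeg F = 1 := by
  have h := w.deg_restrict_mul_inertiaDeg (F := F)
  rw [hF'.deg_eq_one w] at h
  exact Nat.eq_one_of_mul_eq_one_left h

include hF

theorem sum_ramificationIndex (v : Place K F) :
    ∑ w ∈ v.fiber F', (w.ramificationIndex F : ℤ) = Module.finrank F F' := by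
  classical
  obtain ⟨f, hfv, hfo⟩ := exists_pole_only hF v
  have hf : Transcendental K f := transcendental_of_ord_ne_zero v hfv.ne
  have hf' : Transcendental K (algebraMap F F' f) := transcendental_algebraMap hf
  have hpole : poleDiv hF f = Finsupp.single v (-v.ord f) := by
    ext w
    rw [poleDiv_apply]
    rcases eq_or_ne w v with rfl | hw
    · rw [Finsupp.single_eq_same]; omega
    · rw [Finsupp.single_eq_of_ne hw]; have := hfo w hw; omega
  have hk : (Module.finrank K⟮f⟯ F : ℤ) = -v.ord f := by
    rw [← degree_poleDiv hF hf, hpole, Divisor.degree_single, hF.deg_eq_one]; simp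
  have hsupp : (poleDiv hF' (algebraMap F F' f)).support ⊆ v.fiber F' := fun w hw => by
    rw [Finsupp.mem_support_iff, poleDiv_apply, w.ord_restrict] at hw
    rw [Place.mem_fiber]
    by_contra hne
    have h1 := hfo _ hne
    have h2 : 0 ≤ (w.ramificationIndex F : ℤ) * (w.restrict F).ord f :=
      mul_nonneg (Int.natCast_nonneg _) h1
    omega
  have h := degree_eq_finset_sum hF' _ hsupp
  rw [degree_poleDiv hF' hf', finrank_adjoin_algebraMap, Nat.cast_mul, hk] at h
  have h2 : ∀ w ∈ v.fiber F', poleDiv hF' (algebraMap F F' f) w =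
      (-v.ord f) * (w.ramificationIndex F : ℤ) := fun w hw => by
    rw [poleDiv_apply, w.ord_restrict, Place.mem_fiber.1 hw]
    rw [max_eq_right (by
      have : (w.ramificationIndex F : ℤ) * v.ord f ≤ 0 :=
        mul_nonpos_of_nonneg_of_nonpos (Int.natCast_nonneg _) hfv.le
      omega)]
    ring
  rw [Finset.sum_congr rfl h2, ← Finset.mul_sum] at h
  exact (mul_left_cancel₀ (neg_ne_zero.2 hfv.ne) h).symm

theorem fundamentalIdentity : FundamentalIdentity K F F' where
  sum_ramificationIndex_mul_deg v := by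
    simp only [hF.deg_eq_one, hF'.deg_eq_one, Nat.cast_one, mul_one]
    exact sum_ramificationIndex hF hF' v

/-! ### The norm formula -/

theorem sum_fiber_ord (v : Place K F) {f : F'} (hf : f ≠ 0) :
    ∑ w ∈ v.fiber F', w.ord f = v.ord (Algebra.norm F f) := by
  classical
  haveI := module_finite (F' := F') hF hF'
  obtain ⟨t, ht⟩ := exists_uniformizer v
  have ht0 : t ≠ 0 := by rintro rfl; simp at ht
  set S := v.fiber F'
  set e : Place K F' → ℕ := fun w => w.ramificationIndex F with he
  have hlift : ∀ w ∈ S, ∀ (a : F) (m : ℤ), AtLeast v m a →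
      AtLeast w ((e w : ℤ) * m) (algebraMap F F' a) := by
    intro w hw a m ha
    rcases ha with rfl | ha
    · simp [atLeast_zero]
    · exact Or.inr (by
        rw [w.ord_restrict, Place.mem_fiber.1 hw]
        exact mul_le_mul_of_nonneg_left ha (Int.natCast_nonneg _))
  set N : ℕ := ∑ w ∈ S, e w with hN
  have heN : ∀ w ∈ S, e w ≤ N := fun w hw =>
    Finset.single_le_sum (f := e) (fun _ _ => Nat.zero_le _) hw
  choose π hπ using fun w : Place K F' => exists_uniformizer w
  choose u hu using fun j : Σ w : S, Fin (e w.1) =>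
    exists_approx S (fun w => if w = j.1.1 then π w ^ (j.2 : ℕ) else 0) N
  have hother : ∀ j : Σ w : S, Fin (e w.1), ∀ w ∈ S, w ≠ j.1.1 → AtLeast w N (u j) := by
    intro j w hw hne
    have := hu j w hw
    rwa [if_neg hne, sub_zero] at this
  have hself : ∀ j : Σ w : S, Fin (e w.1),
      u j ≠ 0 ∧ (j.1.1).ord (u j) = ((j.2 : ℕ) : ℤ) := by
    rintro ⟨⟨w, hw⟩, i⟩
    have h := hu ⟨⟨w, hw⟩, i⟩ w hw
    rw [if_pos rfl] at h
    have hti : w.ord (π w ^ (i : ℕ)) = ((i : ℕ) : ℤ) := by rw [place_ord_pow, hπ, mul_one]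
    have hπ0 : π w ≠ 0 := fun h => by simpa [h] using hπ w
    have hlt : ((i : ℕ) : ℤ) + 1 ≤ N := by
      have h1 : (i : ℕ) < e w := i.2
      have h2 := heN w hw
      omega
    have := ord_add_eq_left (v := w) (g := u ⟨⟨w, hw⟩, i⟩ - π w ^ (i : ℕ))
      (pow_ne_zero (i : ℕ) hπ0) (by rw [hti]; exact h.mono hlt)
    rw [add_sub_cancel] at this
    exact ⟨this.1, this.2.trans hti⟩
  have hnonneg : ∀ j, ∀ w ∈ S, AtLeast w 0 (u j) := by
    intro j w hw
    rcases eq_or_ne w j.1.1 with rfl | hne
    · exact Or.inr ((hself j).2.symm ▸ Int.natCast_nonneg _)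
    · exact (hother j w hw hne).mono (Int.natCast_nonneg _)
  -- the reduction step
  have hstep : ∀ a : (Σ w : S, Fin (e w.1)) → F, (∀ j, AtLeast v 0 (a j)) →
      (∀ w ∈ S, AtLeast w (e w) (∑ j, algebraMap F F' (a j) * u j)) →
      ∀ j, AtLeast v 1 (a j) := by
    intro a ha hsum
    have hres : ∀ j, ∃ c : K, AtLeast v 1 (a j - algebraMap K F c) := fun j => by
      obtain ⟨c, hc⟩ := exists_residue hF.isCurve v (atLeast_zero_iff_mem.1 (ha j))
      exact ⟨c, hc.imp (fun h => sub_eq_zero.2 h) fun h => by omega⟩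
    choose c hc using hres
    have hsumc : ∀ w ∈ S, AtLeast w (e w) (∑ j, algebraMap K F' (c j) * u j) := by
      intro w hw
      have heq : ∑ j, algebraMap K F' (c j) * u j = ∑ j, algebraMap F F' (a j) * u j -
          ∑ j, algebraMap F F' (a j - algebraMap K F (c j)) * u j := by
        rw [← Finset.sum_sub_distrib]
        refine Finset.sum_congr rfl fun j _ => ?_
        rw [map_sub, ← IsScalarTower.algebraMap_apply]; ring
      rw [heq]
      refine (hsum w hw).sub (atLeast_sum fun j _ => ?_)
      exact ((hlift w hw _ _ (hc j)).mul (hnonneg j w hw)).mono (by simp)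
    have hc0 : ∀ j, c j = 0 := by
      rintro ⟨⟨w, hw⟩, i⟩
      by_contra hne
      set T := Finset.univ.filter fun k : Fin (e w) => c ⟨⟨w, hw⟩, k⟩ ≠ 0
      have hT : T.Nonempty := ⟨i, Finset.mem_filter.2 ⟨Finset.mem_univ _, hne⟩⟩
      set k₀ := T.min' hT
      have hk₀ : c ⟨⟨w, hw⟩, k₀⟩ ≠ 0 := (Finset.mem_filter.1 (T.min'_mem hT)).2
      set j₀ : Σ w : S, Fin (e w.1) := ⟨⟨w, hw⟩, k₀⟩
      have hmain : algebraMap K F' (c j₀) * u j₀ ≠ 0 :=
        mul_ne_zero (by simpa using hk₀) (hself j₀).1
      have hord : w.ord (algebraMap K F' (c j₀) * u j₀) = ((k₀ : ℕ) : ℤ) := by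
        rw [w.ord_mul (by simpa using hk₀) (hself j₀).1, place_ord_algebraMap, zero_add]
        exact (hself j₀).2
      have hk₀e : (k₀ : ℕ) < e w := k₀.2
      have hk₀lt : ((k₀ : ℕ) : ℤ) + 1 ≤ N := by
        have h2 := heN w hw
        omega
      have hrest : AtLeast w (((k₀ : ℕ) : ℤ) + 1)
          (∑ j ∈ Finset.univ.erase j₀, algebraMap K F' (c j) * u j) := by
        refine atLeast_sum fun j hj => ?_
        rcases eq_or_ne w j.1.1 with hwj | hwj
        · obtain ⟨⟨w', hw'⟩, k⟩ := j
          subst hwj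
          rcases eq_or_ne (c ⟨⟨w, hw'⟩, k⟩) 0 with h0 | h0
          · simp [h0, atLeast_zero]
          · have hle : k₀ ≤ k := T.min'_le k (Finset.mem_filter.2 ⟨Finset.mem_univ _, h0⟩)
            have hne' : k₀ ≠ k := fun h => (Finset.mem_erase.1 hj).1 (by subst h; rfl)
            have hlt : (k₀ : ℕ) < (k : ℕ) := Fin.lt_def.1 (lt_of_le_of_ne hle hne')
            refine AtLeast.smul (Or.inr ?_) _
            rw [show w.ord (u ⟨⟨w, hw'⟩, k⟩) = ((k : ℕ) : ℤ) from (hself ⟨⟨w, hw'⟩, k⟩).2]
            omega
        · exact ((hother j w hw hwj).mono hk₀lt).smul _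
      have htot := ord_add_eq_left hmain (hord.symm ▸ hrest)
      rw [Finset.add_sum_erase Finset.univ
        (fun j => algebraMap K F' (c j) * u j) (Finset.mem_univ j₀)] at htot
      have h := (atLeast_iff htot.1).1 (hsumc w hw)
      rw [htot.2, hord] at h
      omega
    intro j
    have := hc j
    rwa [hc0 j, map_zero, sub_zero] at this
  -- lower bounds on the coordinates
  have hcoord : ∀ (m : ℤ) (a : (Σ w : S, Fin (e w.1)) → F),
      (∀ w ∈ S, AtLeast w ((e w : ℤ) * m) (∑ j, algebraMap F F' (a j) * u j)) →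
      ∀ j, AtLeast v m (a j) := by
    intro m a hsum
    set B : ℕ := m.natAbs + ∑ j, (v.ord (a j)).natAbs
    have hk : ∀ k : ℕ, -(B : ℤ) + k ≤ m → ∀ j, AtLeast v (-(B : ℤ) + k) (a j) := by
      intro k
      induction k with
      | zero =>
        intro _ j
        refine (atLeast_ord (a j)).mono ?_
        have h1 : (v.ord (a j)).natAbs ≤ B := le_trans (Finset.single_le_sum
          (f := fun j => (v.ord (a j)).natAbs) (fun _ _ => Nat.zero_le _) (Finset.mem_univ j))
          (Nat.le_add_left _ _)
        omega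
      | succ k ih =>
        intro hkm j
        have hprev := ih (by push_cast at hkm ⊢; omega)
        set m' : ℤ := -(B : ℤ) + k
        have hsc : AtLeast v (-m') (t ^ (-m')) := Or.inr (by rw [v.ord_zpow, ht, mul_one])
        have h := hstep (fun j => t ^ (-m') * a j)
          (fun j => (hsc.mul (hprev j)).mono (by omega))
          (fun w hw => by
            have h2 := (hlift w hw _ _ hsc).mul (hsum w hw)
            rw [Finset.mul_sum] at h2
            refine (AtLeast.mono ?_ (le_refl _))
            rw [Finset.sum_congr rfl (g := fun j => algebraMap F F' (t ^ (-m')) *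
              (algebraMap F F' (a j) * u j)) fun j _ => by rw [map_mul]; ring]
            refine h2.mono ?_
            have h3 : (1 : ℤ) ≤ m - m' := by simp only [m']; push_cast at hkm; omega
            have h4 : (e w : ℤ) ≤ (e w : ℤ) * (m - m') := le_mul_of_one_le_right
              (Int.natCast_nonneg _) h3
            linarith) j
        have hpos : AtLeast v m' (t ^ m') := Or.inr (by rw [v.ord_zpow, ht, mul_one])
        have h2 := hpos.mul h
        rw [← mul_assoc, ← zpow_add₀ ht0, add_neg_cancel, zpow_zero, one_mul] at h2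
        exact h2.mono (by simp only [m']; push_cast; omega)
    intro j
    have hB : -(B : ℤ) ≤ m := by
      have : m.natAbs ≤ B := Nat.le_add_right _ _
      omega
    exact (hk (m + B).toNat (by omega) j).mono (by omega)
  have hli : LinearIndependent F u := by
    rw [Fintype.linearIndependent_iff]
    intro a ha j
    refine eq_zero_of_atLeast_all (v := v) fun m => hcoord m a (fun w _ => ?_) j
    have : ∑ j, algebraMap F F' (a j) * u j = 0 := by simpa [Algebra.smul_def] using ha
    exact Or.inl this
  have hcard : Fintype.card (Σ w : S, Fin (e w.1)) = Module.finrank F F' := by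
    rw [Fintype.card_sigma]
    have h := sum_ramificationIndex hF hF' (F' := F') v
    rw [← Nat.cast_sum, Nat.cast_inj] at h
    rw [← h, ← Finset.sum_coe_sort (v.fiber F')]
    exact Finset.sum_congr rfl fun w _ => Fintype.card_fin _
  haveI : Nonempty (Σ w : S, Fin (e w.1)) :=
    Fintype.card_pos_iff.1 (hcard ▸ Module.finrank_pos)
  let b := basisOfLinearIndependentOfCardEqFinrank hli hcard
  have hb : ∀ j, b j = u j := fun j => by simp [b]
  -- integral elements have integral matrices
  have hmat : ∀ g : F', (∀ w ∈ S, AtLeast w 0 g) →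
      ∀ i j, Algebra.leftMulMatrix b g i j ∈ v.toValuationSubring := by
    intro g hg i j
    rw [← atLeast_zero_iff_mem, Algebra.leftMulMatrix_eq_repr_mul]
    refine hcoord 0 (fun i => b.repr (g * b j) i) (fun w hw => ?_) i
    have := b.sum_repr (g * b j)
    simp only [hb, Algebra.smul_def] at this
    simp only [hb, this, mul_zero]
    simpa using (hg w hw).mul (hnonneg j w hw)
  have hnorm : ∀ g : F', g ≠ 0 → (∀ w ∈ S, AtLeast w 0 g) →
      0 ≤ v.ord (Algebra.norm F g) ∧
        (v.ord (Algebra.norm F g) = 0 → ∀ w ∈ S, w.ord g = 0) := by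
    intro g hg0 hg
    let M : Matrix (Σ w : S, Fin (e w.1)) (Σ w : S, Fin (e w.1)) v.toValuationSubring :=
      fun i j => ⟨_, hmat g hg i j⟩
    have hM : M.map v.toValuationSubring.subtype = Algebra.leftMulMatrix b g := rfl
    have hdet : v.toValuationSubring.subtype M.det = Algebra.norm F g := by
      rw [Algebra.norm_eq_matrix_det b, ← hM]; exact RingHom.map_det _ _
    refine ⟨hdet ▸ ord_nonneg_of_mem v M.det.2, fun h0 w hw => ?_⟩
    -- `g * R = ± norm` with `R` integral
    set P := M.charpoly.map v.toValuationSubring.subtype with hP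
    have hPg : aeval g P = 0 := by
      apply Algebra.leftMulMatrix_injective b
      rw [← Polynomial.aeval_algHom_apply, map_zero, hP, ← Matrix.charpoly_map, hM]
      exact Matrix.aeval_self_charpoly _
    have hcoef : ∀ k, AtLeast v 0 (P.coeff k) := fun k => by
      rw [hP, Polynomial.coeff_map]; exact atLeast_zero_iff_mem.2 (Subtype.prop _)
    have hR : AtLeast w 0 (aeval g P.divX) := by
      rw [aeval_eq_sum_range]
      refine atLeast_sum fun k _ => ?_
      rw [Algebra.smul_def, Polynomial.coeff_divX]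
      simpa using (hlift w hw _ _ (hcoef (k + 1))).mul (atLeast_pow (hg w hw) k)
    have hc : P.coeff 0 = (-1) ^ Fintype.card (Σ w : S, Fin (e w.1)) * Algebra.norm F g := by
      rw [hP, Polynomial.coeff_map, ← hdet, Matrix.det_eq_sign_charpoly_coeff, map_mul, map_pow,
        map_neg, map_one, ← mul_assoc, ← mul_pow]
      simp
    have hN0 : Algebra.norm F g ≠ 0 := Algebra.norm_ne_zero_iff.2 hg0
    have hc0 : P.coeff 0 ≠ 0 := hc ▸ mul_ne_zero (pow_ne_zero _ (by simp)) hN0
    have hordc : v.ord (P.coeff 0) = 0 := by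
      rw [hc, v.ord_mul (pow_ne_zero _ (by simp)) hN0, h0, place_ord_pow, place_ord_neg, v.ord_one]
      simp
    rw [← P.X_mul_divX_add, map_add, map_mul, aeval_X, aeval_C,
      add_eq_zero_iff_eq_neg] at hPg
    have hprod : g * aeval g P.divX ≠ 0 := by rw [hPg]; simpa using hc0
    have h1 : w.ord (g * aeval g P.divX) = 0 := by
      rw [hPg, place_ord_neg, w.ord_restrict, Place.mem_fiber.1 hw, hordc, mul_zero]
    rw [w.ord_mul hg0 (right_ne_zero_of_mul hprod)] at h1
    have h2 := (atLeast_iff hg0).1 (hg w hw)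
    have h3 := (atLeast_iff (right_ne_zero_of_mul hprod)).1 hR
    omega
  -- elements of order one at `w` and zero elsewhere
  choose ρ hρ using fun w : Place K F' =>
    exists_approx S (fun u => if u = w then π u else 1) 2
  have hρord : ∀ w ∈ S, ∀ u ∈ S, ρ w ≠ 0 ∧ u.ord (ρ w) = if u = w then 1 else 0 := by
    intro w _ u hu'
    have h := hρ w u hu'
    split_ifs with huw
    · rw [if_pos huw] at h
      have := ord_add_eq_left (v := u) (f := π u) (g := ρ w - π u)
        (fun h0 => by simpa [h0] using hπ u)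
        (by rw [hπ]; exact h.mono (by norm_num))
      rw [add_sub_cancel, hπ] at this
      exact this
    · rw [if_neg huw] at h
      have := ord_add_eq_left (v := u) (g := ρ w - 1) one_ne_zero
        (by rw [u.ord_one]; exact h.mono (by norm_num))
      rw [add_sub_cancel, u.ord_one] at this
      exact this
  have hρ0 : ∀ w ∈ S, ρ w ≠ 0 := fun w hw => (hρord w hw w hw).1
  have hninv : ∀ g : F', g ≠ 0 → Algebra.norm F g⁻¹ = (Algebra.norm F g)⁻¹ := fun g hg =>
    eq_inv_of_mul_eq_one_left (by rw [← map_mul, inv_mul_cancel₀ hg, map_one])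
  have hnzpow : ∀ g : F', g ≠ 0 → ∀ n : ℤ, Algebra.norm F (g ^ n) = Algebra.norm F g ^ n := by
    intro g hg n
    obtain ⟨k, rfl | rfl⟩ := n.eq_nat_or_neg
    · simp only [zpow_natCast, map_pow]
    · simp only [zpow_neg, zpow_natCast, hninv _ (pow_ne_zero k hg), map_pow]
  have hgen : ∀ g : F', g ≠ 0 →
      v.ord (Algebra.norm F g) = ∑ w ∈ S, v.ord (Algebra.norm F (ρ w)) * w.ord g := by
    intro g hg0
    set g' := g * ∏ w ∈ S, ρ w ^ (-w.ord g) with hg'
    have hprod : ∀ T : Finset (Place K F'), T ⊆ S →
        (∏ w ∈ T, ρ w ^ (-w.ord g)) ≠ 0 ∧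
        (∀ u ∈ S, u.ord (∏ w ∈ T, ρ w ^ (-w.ord g)) =
          ∑ w ∈ T, if u = w then -w.ord g else 0) ∧
        v.ord (Algebra.norm F (∏ w ∈ T, ρ w ^ (-w.ord g))) =
          ∑ w ∈ T, v.ord (Algebra.norm F (ρ w)) * -w.ord g := by
      intro T
      induction T using Finset.induction with
      | empty => intro _; simp
      | @insert x T hxT ih =>
        intro hTS
        rw [Finset.insert_subset_iff] at hTS
        obtain ⟨h1, h2, h3⟩ := ih hTS.2
        have hx0 : ρ x ^ (-x.ord g) ≠ 0 := zpow_ne_zero _ (hρ0 x hTS.1)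
        refine ⟨by rw [Finset.prod_insert hxT]; exact mul_ne_zero hx0 h1, fun u hu' => ?_, ?_⟩
        · rw [Finset.prod_insert hxT, Finset.sum_insert hxT, u.ord_mul hx0 h1, u.ord_zpow,
            (hρord x hTS.1 u hu').2, h2 u hu']
          split_ifs <;> simp
        · rw [Finset.prod_insert hxT, Finset.sum_insert hxT, map_mul,
            v.ord_mul (Algebra.norm_ne_zero_iff.2 hx0) (Algebra.norm_ne_zero_iff.2 h1), h3,
            hnzpow _ (hρ0 x hTS.1), v.ord_zpow]
          ring
    obtain ⟨hp0, hpu, hpN⟩ := hprod S subset_rfl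
    have hg'0 : g' ≠ 0 := mul_ne_zero hg0 hp0
    have hg'u : ∀ u ∈ S, u.ord g' = 0 := fun u hu' => by
      rw [hg', u.ord_mul hg0 hp0, hpu u hu', Finset.sum_ite_eq S u, if_pos hu']; ring
    have hge := fun u hu' => (Or.inr (hg'u u hu').ge : AtLeast u 0 g')
    have hge' : ∀ u ∈ S, AtLeast u 0 g'⁻¹ := fun u hu' =>
      Or.inr (by rw [u.ord_inv, hg'u u hu']; simp)
    have h1 := (hnorm g' hg'0 hge).1
    have h2 := (hnorm g'⁻¹ (inv_ne_zero hg'0) hge').1
    rw [hninv g' hg'0, v.ord_inv] at h2
    have hzero : v.ord (Algebra.norm F g') = 0 := by omega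
    rw [hg', map_mul, v.ord_mul (Algebra.norm_ne_zero_iff.2 hg0) (Algebra.norm_ne_zero_iff.2 hp0),
      hpN] at hzero
    simp only [mul_neg, Finset.sum_neg_distrib] at hzero
    linarith
  have hc1 : ∀ w ∈ S, 1 ≤ v.ord (Algebra.norm F (ρ w)) := by
    intro w hw
    have hint : ∀ u ∈ S, AtLeast u 0 (ρ w) := fun u hu' => Or.inr (by
      rw [(hρord w hw u hu').2]; split_ifs <;> norm_num)
    obtain ⟨h1, h2⟩ := hnorm _ (hρ0 w hw) hint
    by_contra hlt
    have h3 := h2 (by omega) w hw
    rw [(hρord w hw w hw).2, if_pos rfl] at h3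
    exact one_ne_zero h3
  have ht' := hgen (algebraMap F F' t) (by simpa using ht0)
  have hrw : ∀ w ∈ S, v.ord (Algebra.norm F (ρ w)) * w.ord (algebraMap F F' t) =
      v.ord (Algebra.norm F (ρ w)) * (e w : ℤ) := fun w hw => by
    rw [w.ord_restrict, Place.mem_fiber.1 hw, ht, mul_one]
  rw [Algebra.norm_algebraMap, place_ord_pow, ht, mul_one, Finset.sum_congr rfl hrw,
    ← sum_ramificationIndex hF hF' (F' := F') v] at ht'
  have hall : ∀ w ∈ S, v.ord (Algebra.norm F (ρ w)) = 1 := by
    intro w hw
    have hepos : ∀ u : Place K F', 0 < (e u : ℤ) := fun u => by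
      have := u.ramificationIndex_pos (F := F); simp only [he]; omega
    have hz : ∑ u ∈ S, (v.ord (Algebra.norm F (ρ u)) - 1) * (e u : ℤ) = 0 := by
      simp only [sub_mul, one_mul, Finset.sum_sub_distrib]
      rw [← ht', sub_eq_zero]
    have := (Finset.sum_eq_zero_iff_of_nonneg fun u hu' =>
      mul_nonneg (by linarith [hc1 u hu']) (hepos u).le).1 hz w hw
    rcases mul_eq_zero.1 this with h | h
    · omega
    · exact absurd h (hepos w).ne'
  rw [hgen f hf]
  exact Finset.sum_congr rfl fun w hw => by rw [hall w hw, one_mul]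

theorem normFormula [Module.Finite F F'] : Divisor.PushforwardNormFormula K F F' := by
  classical
  intro f hf D hD v
  rw [Divisor.pushforward_apply, ← sum_fiber_ord hF hF' v hf]
  simp only [inertiaDeg_eq_one hF', Nat.cast_one, mul_one]
  rw [← Finset.sum_filter]
  refine (Finset.sum_subset (fun w hw => ?_) fun w hw hw' => ?_).trans
    (Finset.sum_congr rfl fun w _ => hD w)
  · exact Place.mem_fiber.2 (Finset.mem_filter.1 hw).2
  · rw [Finset.mem_filter, not_and] at hw'
    by_contra hne
    exact hw' (Finsupp.mem_support_iff.2 hne) (Place.mem_fiber.1 hw)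

end Tower

section Along

variable {K F F' : Type*} [Field K] [IsAlgClosed K] [Field F] [Field F'] [Algebra K F]
  [Algebra K F'] (hF : IsFunctionField K F) (hF' : IsFunctionField K F') (φ : F →ₐ[K] F')

include hF hF'

theorem finiteAlong : FiniteAlong K φ := by
  letI := algebraAlong φ
  haveI := isScalarTower_along φ
  exact module_finite hF hF'

theorem isIntegral_toRingHom : φ.toRingHom.IsIntegral := by
  letI := algebraAlong φ
  haveI : Module.Finite F F' := finiteAlong hF hF' φ
  exact fun x => IsIntegral.of_finite F x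

theorem fundamentalIdentityAlong [HasPrincipalDivisors K F'] (hφ : φ.toRingHom.IsIntegral) :
    FundamentalIdentityAlong K φ hφ := by
  letI := algebraAlong φ
  haveI := isScalarTower_along φ
  haveI := isIntegral_along φ hφ
  exact fundamentalIdentity hF hF'

theorem normFormulaAlong (hfin : FiniteAlong K φ) : NormFormulaAlong K φ hfin := by
  letI := algebraAlong φ
  haveI := isScalarTower_along φ
  haveI : Module.Finite F F' := hfin
  haveI : Algebra.IsIntegral F F' := Algebra.IsIntegral.of_finite F F'
  haveI := hasPrincipalDivisors hF'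
  exact normFormula hF hF'

end Along

end FA.Curve
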